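import Fermat.Agent.FlatT.HeckeRep

/-!
The characteristic polynomial relation for a Galois module over a Hecke algebra, and exactness of
matrices acting on pairs.
-/

set_option autoImplicit false
set_option linter.unusedSectionVars false

open Module GaloisRep Fermat.Agent.HopfOrder IsLocalRing Polynomial

namespace Fermat.Agent.Mor

open Fermat.Agent.HeckeGal Fermat.Agent.FlatT
open Fermat.Agent.DefRing (M2 MatCont mapRep mapRep_apply ofMat matOf Red)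

section Rel

variable {T X : Type} [CommRing T] [IsLocalRing T] [AddCommGroup X] [Module T X]

/-- The relation `g + det(g) g⁻¹ = tr(g)` by density of Frobenius elements. -/
theorem relation (gM : GQ →* Module.End T X) (ρ : GaloisRepAdic T) (S : Finset ℕ)
    (hcont : ∃ L : IntermediateField ℚ (AlgebraicClosure ℚ), FiniteDimensional ℚ L ∧
      ∀ σ : GQ, (∀ x ∈ L, σ x = x) → gM σ = 1)
    (hfrob : ∀ ℓ : ℕ, ℓ.Prime → ℓ ∉ S → ∃ a : T,
      ∀ P : ValuationSubring (AlgebraicClosure ℚ), P.LiesOverPrime ℓ →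
      ∀ τ : GQ, P.IsFrobeniusAt τ ℓ →
        gM τ * gM τ - a • gM τ + (ℓ : T) • (1 : Module.End T X) = 0 ∧
        LinearMap.charpoly (ρ.ρ τ) = Polynomial.X ^ 2 - C a * Polynomial.X + C ((ℓ : T)))
    (n : ℕ) (hn : ∀ t ∈ maximalIdeal T ^ n, ∀ x : X, t • x = 0) (g : GQ) :
    gM g + (LinearMap.det (ρ.ρ g)) • gM g⁻¹ =
      LinearMap.trace T ρ.V (ρ.ρ g) • (1 : Module.End T X) := by
  obtain ⟨L₁, hL₁, h₁⟩ := ρ.isAdicContinuous n
  obtain ⟨L₂, hL₂, h₂⟩ := hcont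
  obtain ⟨ℓ, hℓ, hℓS, P, hP, -, τ, hτ, ⟨j, hj⟩, -⟩ :=
    FrobDensity.exists_frobenius_pow_eq (L₁ ⊔ L₂)
      (IntermediateField.finiteDimensional_sup L₁ L₂) g S
  obtain ⟨a, ha⟩ := hfrob ℓ hℓ hℓS
  obtain ⟨hrel, hchar⟩ := ha P hP τ hτ
  have hinv : ∀ σ : GQ, gM σ * gM σ⁻¹ = 1 := fun σ => by
    rw [← map_mul, mul_inv_cancel, map_one]
  have hinv' : ∀ σ : GQ, gM σ⁻¹ * gM σ = 1 := fun σ => by
    rw [← map_mul, inv_mul_cancel, map_one]
  have hrelT : gM τ + (ℓ : T) • gM τ⁻¹ = a • (1 : Module.End T X) := by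
    have h3 := congrArg (· * gM τ⁻¹) hrel
    simp only [add_mul, sub_mul, zero_mul, smul_mul_assoc, one_mul, mul_assoc] at h3
    rw [← map_mul, mul_inv_cancel, map_one, mul_one, sub_add_eq_add_sub, sub_eq_zero] at h3
    exact h3
  have hxy : gM τ * ((ℓ : T) • gM τ⁻¹) = (ℓ : T) • (1 : Module.End T X) := by
    rw [mul_smul_comm, hinv]
  have hyx : ((ℓ : T) • gM τ⁻¹) * gM τ = (ℓ : T) • (1 : Module.End T X) := by
    rw [smul_mul_assoc, hinv']
  have hpow := pow_add_pow_eq_lucas (gM τ) ((ℓ : T) • gM τ⁻¹) a (ℓ : T)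
    (hxy.trans hyx.symm) hrelT hxy j
  have hfix : ∀ x ∈ L₂, (g⁻¹ * τ ^ j) x = x := by
    intro x hx
    rw [AlgEquiv.mul_apply, hj x ((le_sup_right : L₂ ≤ L₁ ⊔ L₂) hx)]
    exact g.symm_apply_apply x
  have hbc : gM (τ ^ j) = gM g := by
    have h3 : gM (g⁻¹ * τ ^ j) = 1 := h₂ _ hfix
    have h5 := congrArg (gM g * ·) h3
    simp only [mul_one] at h5
    rw [← map_mul, mul_inv_cancel_left] at h5
    exact h5
  have hbc' : gM (τ ^ j)⁻¹ = gM g⁻¹ := by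
    calc gM (τ ^ j)⁻¹ = gM (τ ^ j)⁻¹ * (gM g * gM g⁻¹) := by
          rw [hinv, mul_one]
      _ = (gM (τ ^ j)⁻¹ * gM (τ ^ j)) * gM g⁻¹ := by
          rw [hbc, mul_assoc]
      _ = gM g⁻¹ := by rw [hinv', one_mul]
  have hmod : ∀ v, ρ.ρ g v - ρ.ρ (τ ^ j) v ∈ (maximalIdeal T ^ n) • (⊤ : Submodule T ρ.V) :=
    sub_mem_of_forall_eq ρ n L₁ h₁ g (τ ^ j) fun x hx => hj x ((le_sup_left : L₁ ≤ L₁ ⊔ L₂) hx)
  have htr := trace_sub_mem ρ.finrank_eq _ _ _ hmod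
  have hdet := det_sub_mem ρ.finrank_eq _ _ _ hmod
  have hdetτ : LinearMap.det (ρ.ρ (τ ^ j)) = (ℓ : T) ^ j := by
    have h0 := hchar
    rw [FrobDensity.charpoly_eq_of_finrank ρ.finrank_eq] at h0
    rw [map_pow, map_pow, (FrobDensity.eq_of_charpoly_eq h0).2]
  have htrτ : LinearMap.trace T ρ.V (ρ.ρ (τ ^ j)) = lucas a (ℓ : T) j := by
    rw [map_pow, trace_pow_eq_lucas ρ.finrank_eq _ hchar]
  rw [_root_.smul_pow, ← map_pow, ← map_pow, inv_pow, hbc, hbc', ← hdetτ, ← htrτ] at hpow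
  refine LinearMap.ext fun z => ?_
  have h7 := congrArg (fun f : Module.End T X => f z) hpow
  simp only [LinearMap.add_apply, LinearMap.smul_apply, Module.End.one_apply] at h7 ⊢
  have h8 := sub_eq_zero.1 ((_root_.sub_smul (LinearMap.trace T ρ.V (ρ.ρ g))
    (LinearMap.trace T ρ.V (ρ.ρ (τ ^ j))) z).symm.trans (hn _ htr z))
  have h9 := sub_eq_zero.1 ((_root_.sub_smul (LinearMap.det (ρ.ρ g))
    (LinearMap.det (ρ.ρ (τ ^ j))) (gM g⁻¹ z)).symm.trans
      (hn _ hdet (gM g⁻¹ z)))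
  rw [h8, h9]
  exact h7

/-- The action of the matrix algebra. -/
theorem exists_matrix_action {𝒪 : Type} [CommRing 𝒪] [IsLocalRing 𝒪]
    {rbar : GQ →* M2 (ResidueField 𝒪)}
    (hspan : Submodule.span (ResidueField 𝒪) (Set.range rbar) = ⊤)
    [Algebra 𝒪 T] [IsLocalHom (algebraMap 𝒪 T)]
    (r : GQ →* M2 T) (hc : MatCont T r) (hred : Red rbar r)
    (gM : GQ →* Module.End T X) (S : Finset ℕ)
    (hcont : ∃ L : IntermediateField ℚ (AlgebraicClosure ℚ), FiniteDimensional ℚ L ∧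
      ∀ σ : GQ, (∀ x ∈ L, σ x = x) → gM σ = 1)
    (hfrob : ∀ ℓ : ℕ, ℓ.Prime → ℓ ∉ S → ∃ a : T,
      ∀ P : ValuationSubring (AlgebraicClosure ℚ), P.LiesOverPrime ℓ →
      ∀ τ : GQ, P.IsFrobeniusAt τ ℓ →
        gM τ * gM τ - a • gM τ + (ℓ : T) • (1 : Module.End T X) = 0 ∧
        (r τ).trace = a ∧ (r τ).det = ℓ)
    (n : ℕ) (hn : ∀ t ∈ maximalIdeal T ^ n, ∀ x : X, t • x = 0)
    (h2 : ∀ x : X, x + x = 0 → x = 0) :
    ∃ Ψ : M2 T →ₐ[T] Module.End T X, ∀ g, Ψ (r g) = gM g := by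
  have h1 := relation gM (ofMat r hc) S hcont (fun ℓ hℓ hℓS => by
    obtain ⟨a, ha⟩ := hfrob ℓ hℓ hℓS
    refine ⟨a, fun P hP τ hτ => ⟨(ha P hP τ hτ).1, ?_⟩⟩
    rw [charpoly_ofMat, (ha P hP τ hτ).2.1, (ha P hP τ hτ).2.2]) n hn
  obtain ⟨Ψ, hΨ⟩ := exists_lift (Pi.basisFun T (Fin 2)) (ofMat r hc).ρ gM
    ((LinearMap.det (M := (ofMat r hc).V) (A := T)).comp (ofMat r hc).ρ)
    (span_ofMat hc (span_top_of_red hspan hred)) h1 h2
  exact ⟨Ψ.comp (Matrix.toLinAlgEquiv' : M2 T ≃ₐ[T] _).toAlgHom, fun g => hΨ g⟩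

end Rel

section Pair

variable {T X : Type} [CommRing T] [AddCommGroup X] [Module T X]

theorem mat_eq (N : M2 T) : N = N 0 0 • Matrix.single 0 0 (1 : T) + N 0 1 • Matrix.single 0 1 1 +
    (N 1 0 • Matrix.single 1 0 1 + N 1 1 • Matrix.single 1 1 1) := by
  ext i j
  fin_cases i <;> fin_cases j <;> simp [Matrix.single_apply]

/-- **Morita**: exactness on `X` gives exactness on pairs. -/
theorem exact_pair (Ψ : M2 T →ₐ[T] Module.End T X) (N : M2 T)
    (hex : ∀ x : X, Ψ N x = 0 → ∃ z, Ψ N z = x) (x y : X)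
    (h0 : N 0 0 • x + N 0 1 • y = 0) (h1 : N 1 0 • x + N 1 1 • y = 0) :
    ∃ u v : X, x = N 0 0 • u + N 0 1 • v ∧ y = N 1 0 • u + N 1 1 • v := by
  let e : Fin 2 → Fin 2 → Module.End T X := fun i j => Ψ (Matrix.single i j 1)
  have hee : ∀ i j l (z : X), e i j (e j l z) = e i l z := by
    intro i j l z
    have h : e i j * e j l = e i l := by
      show Ψ _ * Ψ _ = Ψ _
      rw [← map_mul, Matrix.single_mul_single_same, mul_one]
    exact DFunLike.congr_fun h z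
  have hee0 : ∀ i j k l (z : X), j ≠ k → e i j (e k l z) = 0 := by
    intro i j k l z hjk
    have h : e i j * e k l = 0 := by
      show Ψ _ * Ψ _ = 0
      rw [← map_mul, Matrix.single_mul_single_of_ne _ _ _ _ hjk, map_zero]
    exact DFunLike.congr_fun h z
  have h11 : ∀ z : X, e 0 0 z + e 1 1 z = z := by
    intro z
    have h : e 0 0 + e 1 1 = 1 := by
      show Ψ _ + Ψ _ = 1
      rw [← map_add, ← map_one Ψ]
      congr 1
      ext i j
      fin_cases i <;> fin_cases j <;> simp [Matrix.single_apply]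
    exact DFunLike.congr_fun h z
  have hN : ∀ z : X, Ψ N z = N 0 0 • e 0 0 z + N 0 1 • e 0 1 z + (N 1 0 • e 1 0 z +
      N 1 1 • e 1 1 z) := by
    intro z
    conv_lhs => rw [mat_eq N]
    simp only [map_add, map_smul, LinearMap.add_apply, LinearMap.smul_apply]
    rfl
  -- the elements `w a`
  have hw : ∀ a : Fin 2, ∃ z, Ψ N z = e 0 a x + e 1 a y := by
    intro a
    apply hex
    rw [hN]
    simp only [map_add, hee, hee0 _ _ _ _ _ (zero_ne_one : (0 : Fin 2) ≠ 1),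
      hee0 _ _ _ _ _ (one_ne_zero : (1 : Fin 2) ≠ 0), add_zero, zero_add]
    have e1 : e 0 a (N 0 0 • x + N 0 1 • y) + e 1 a (N 1 0 • x + N 1 1 • y) = 0 := by
      rw [h0, h1, map_zero, map_zero, add_zero]
    simp only [map_add, map_smul] at e1
    exact e1
  choose z hz using hw
  refine ⟨e 0 0 (z 0) + e 1 0 (z 1), e 0 1 (z 0) + e 1 1 (z 1), ?_, ?_⟩
  · have e1 : x = e 0 0 (e 0 0 x + e 1 0 y) + e 1 0 (e 0 1 x + e 1 1 y) := by
      simp only [map_add, hee, hee0 _ _ _ _ _ (zero_ne_one : (0 : Fin 2) ≠ 1), add_zero]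
      exact (h11 x).symm
    rw [← hz, ← hz, hN, hN] at e1
    simp only [map_add, map_smul, hee, hee0 _ _ _ _ _ (zero_ne_one : (0 : Fin 2) ≠ 1),
      smul_zero, add_zero] at e1
    conv_lhs => rw [e1]
    simp only [smul_add]
    abel
  · have e1 : y = e 0 1 (e 0 0 x + e 1 0 y) + e 1 1 (e 0 1 x + e 1 1 y) := by
      simp only [map_add, hee, hee0 _ _ _ _ _ (one_ne_zero : (1 : Fin 2) ≠ 0), zero_add]
      exact (h11 y).symm
    rw [← hz, ← hz, hN, hN] at e1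
    simp only [map_add, map_smul, hee, hee0 _ _ _ _ _ (one_ne_zero : (1 : Fin 2) ≠ 0),
      smul_zero, zero_add] at e1
    conv_lhs => rw [e1]
    simp only [smul_add]
    abel

end Pair

end Fermat.Agent.Mor
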