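import Fermat.Agent.Mor.TorP

/-!
Comparison of the `p`-torsion with homomorphisms, after extension of scalars.
-/

set_option autoImplicit false
set_option linter.unusedSectionVars false

noncomputable section

namespace Fermat.Agent.Mor

open Module Fermat.Agent.Tate
open scoped TensorProduct

section Cmp

variable {J : Type} [AddCommGroup J] {p : ℕ} [hp : Fact p.Prime] {ι : Type} {Γ : Type} [Group Γ]
  (C : Comparison p J Γ) (T : Fam ι (ZMod p) (Jp J p)) {k : Type} [Field k] [CharP k p]
  [Algebra (ZMod p) k] {O : Type} [CommRing O] {κ : O →+* k}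

/-- the cast -/
def cst (p : ℕ) (k : Type) [Field k] [CharP k p] : ZMod (p ^ 1) →+* k :=
  ZMod.castHom (dvd_of_eq (pow_one p).symm) k

/-- the cast -/
def cst' (p : ℕ) : ZMod (p ^ 1) →+* ZMod p :=
  ZMod.castHom (dvd_of_eq (pow_one p).symm) (ZMod p)

theorem cst_eq (x : ZMod (p ^ 1)) : cst p k x = algebraMap (ZMod p) k (cst' p x) := by
  have h : cst p k = (algebraMap (ZMod p) k).comp (cst' p) := Subsingleton.elim _ _
  rw [h]
  rfl

theorem cst'_injective : Function.Injective (cst' p) := by
  have : Fact (p ^ 1).Prime := ⟨by rw [pow_one]; exact hp.out⟩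
  exact (cst' p).injective

/-- the comparison -/
def Jp.toHom : Jp J p →+ (Additive Γ →+ k) where
  toFun x := ((cst p k : ZMod (p ^ 1) →+* k) : ZMod (p ^ 1) →+ k).comp (C.e 1 x)
  map_zero' := by
    have h : C.e 1 (0 : Jp J p) = 0 := map_zero (C.e 1)
    rw [h]
    exact AddMonoidHom.comp_zero _
  map_add' x y := by
    have h : C.e 1 (x + y : Jp J p) = C.e 1 x + C.e 1 y := map_add (C.e 1) _ _
    rw [h]
    exact AddMonoidHom.comp_add _ _ _

theorem Jp.toHom_apply (x : Jp J p) (g : Additive Γ) :
    Jp.toHom (k := k) C x g = cst p k (C.e 1 x g) := rfl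

/-- the comparison in `ZMod p` -/
def Jp.toFun0 : Jp J p →+ (Additive Γ → ZMod p) where
  toFun x g := cst' p (C.e 1 x g)
  map_zero' := by
    have h : C.e 1 (0 : Jp J p) = 0 := map_zero (C.e 1)
    rw [h]
    funext g
    exact map_zero (cst' p)
  map_add' x y := by
    have h : C.e 1 (x + y : Jp J p) = C.e 1 x + C.e 1 y := map_add (C.e 1) _ _
    rw [h]
    funext g
    exact map_add (cst' p) _ _

theorem Jp.toFun0_injective : Function.Injective (Jp.toFun0 C : Jp J p →+ (Additive Γ → ZMod p)) := by
  intro x y h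
  apply C.injective 1
  refine AddMonoidHom.ext fun g => ?_
  exact cst'_injective (congrFun h g)

theorem hom_tower : IsScalarTower (ZMod p) k (Additive Γ →+ k) := ⟨fun a b φ => by
  refine AddMonoidHom.ext fun g => ?_
  exact smul_assoc a b (φ g)⟩

/-- the comparison after extension of scalars -/
def XA.toHom : XA T O k κ →ₗ[k] (Additive Γ →+ k) :=
  haveI : IsScalarTower (ZMod p) k (Additive Γ →+ k) := hom_tower
  LinearMap.liftBaseChange k (AddMonoidHom.toZModLinearMap p (Jp.toHom (k := k) C))

theorem XA.toHom_tmul (c : k) (a : Jp J p) :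
    XA.toHom C T (κ := κ) (XA.tmul T O κ c a) = c • Jp.toHom C a := by
  haveI : IsScalarTower (ZMod p) k (Additive Γ →+ k) := hom_tower
  exact LinearMap.liftBaseChange_tmul ..

theorem XA.toHom_injective :
    Function.Injective (XA.toHom C T (κ := κ) : XA T O k κ →ₗ[k] (Additive Γ →+ k)) := by
  let ev : (Additive Γ →+ k) →ₗ[k] (Additive Γ → k) :=
    { toFun := fun φ => φ, map_add' := fun _ _ => rfl, map_smul' := fun _ _ => rfl }
  refine ext_injective (F := ZMod p) (k := k) (A := Jp J p)
    (AddMonoidHom.toZModLinearMap p (Jp.toFun0 C)) (Jp.toFun0_injective C)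
    (XA.toHom C T (κ := κ)) ev fun a g => ?_
  have h := XA.toHom_tmul C T (O := O) (κ := κ) 1 a
  exact (congrArg (fun φ : Additive Γ →+ k => φ g) (h.trans (one_smul _ _))).trans (cst_eq _)

end Cmp

end Fermat.Agent.Mor

end
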