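import Fermat.Agent.Mor.Tens
import Mathlib.RingTheory.DiscreteValuationRing.Basic
import Mathlib.RingTheory.LocalRing.ResidueField.Basic

/-!
Comparison of localised modules.
-/

set_option autoImplicit false
set_option linter.unusedSectionVars false

noncomputable section

namespace Fermat.Agent.Mor

open Fermat.Agent.TW

section Cmp

variable {B : Type} [CommRing B] (𝔪 : Ideal B) [h𝔪 : 𝔪.IsPrime] {N V Y : Type}
  [AddCommGroup N] [Module B N] [AddCommGroup V] [Module B V] [AddCommGroup Y] [Module B Y]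
  (f : N →ₗ[B] V) (j : Y →ₗ[B] V)

theorem exists_smul_eq {s : B} (hs : s ∉ 𝔪) (x : Loc 𝔪 N) : ∃ y : Loc 𝔪 N, s • y = x :=
  (Loc.smul_bij hs).2 x

theorem smul_cancel {s : B} (hs : s ∉ 𝔪) {x y : Loc 𝔪 N} (h : s • x = s • y) : x = y :=
  (Loc.smul_bij hs).1 h

include h𝔪 in
theorem mul_notMem {s t : B} (hs : s ∉ 𝔪) (ht : t ∉ 𝔪) : s * t ∉ 𝔪 := fun h =>
  (h𝔪.mem_or_mem h).elim hs ht

theorem loc_exists_of (hf : ∀ y, ∃ z, f z = j y) (y : Loc 𝔪 Y) :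
    ∃ x : Loc 𝔪 N, Loc.map 𝔪 f x = Loc.map 𝔪 j y := by
  obtain ⟨s, hs, n, hn⟩ := Loc.exists_smul y
  obtain ⟨z, hz⟩ := hf n
  obtain ⟨x, hx⟩ := exists_smul_eq 𝔪 hs (Loc.mk 𝔪 N z)
  refine ⟨x, smul_cancel 𝔪 hs ?_⟩
  rw [← map_smul, ← map_smul, hx, hn, Loc.map_mk, Loc.map_mk, hz]

theorem loc_exists_of' {η : B} (hη : η ∉ 𝔪) (hf : ∀ z, ∃ y, j y = η • f z) (x : Loc 𝔪 N) :
    ∃ y : Loc 𝔪 Y, Loc.map 𝔪 j y = Loc.map 𝔪 f x := by
  obtain ⟨s, hs, n, hn⟩ := Loc.exists_smul x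
  obtain ⟨z, hz⟩ := hf n
  obtain ⟨y, hy⟩ := exists_smul_eq 𝔪 (mul_notMem 𝔪 hη hs) (Loc.mk 𝔪 Y z)
  refine ⟨y, smul_cancel 𝔪 (mul_notMem 𝔪 hη hs) ?_⟩
  rw [← map_smul, ← map_smul, hy, mul_smul, hn, map_smul, Loc.map_mk, Loc.map_mk, hz, map_smul]

theorem loc_injective (hj : Function.Injective j) : Function.Injective (Loc.map 𝔪 j) :=
  Loc.map_injective 𝔪 j fun n hn => ⟨1, (Ideal.ne_top_iff_one 𝔪).mp h𝔪.ne_top, by
    rw [one_smul]; exact hj (hn.trans (map_zero j).symm)⟩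

theorem loc_ker {c : B} (hf : ∀ z, f z = 0 → ∃ w, z = c • w) (x : Loc 𝔪 N)
    (hx : Loc.map 𝔪 f x = 0) : ∃ w, x = c • w := by
  obtain ⟨s, hs, n, hn⟩ := Loc.exists_smul x
  have h1 : Loc.mk 𝔪 V (f n) = 0 := by
    rw [← Loc.map_mk, ← hn, map_smul, hx, smul_zero]
  obtain ⟨t, ht, h2⟩ := Loc.mk_eq_zero.mp h1
  rw [← map_smul] at h2
  obtain ⟨w, hw⟩ := hf _ h2
  obtain ⟨y, hy⟩ := exists_smul_eq 𝔪 (mul_notMem 𝔪 ht hs) (Loc.mk 𝔪 N w)
  refine ⟨y, smul_cancel 𝔪 (mul_notMem 𝔪 ht hs) ?_⟩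
  rw [smul_comm, hy, ← map_smul, ← hw, mul_smul, hn, map_smul]

theorem loc_ker' {c : B} (hf : ∀ w, f (c • w) = 0) (x : Loc 𝔪 N) :
    Loc.map 𝔪 f (c • x) = 0 := by
  obtain ⟨s, hs, n, hn⟩ := Loc.exists_smul x
  refine smul_cancel 𝔪 hs ?_
  rw [smul_zero, ← map_smul, smul_comm, hn, ← map_smul, Loc.map_mk, hf, map_zero]

theorem mk_surjective_of_finite [Finite Y] : Function.Surjective (Loc.mk 𝔪 Y) := by
  intro x
  obtain ⟨s, hs, n, hn⟩ := Loc.exists_smul x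
  let R := LinearMap.range (Loc.mk 𝔪 Y)
  have hfin : Finite R := Set.finite_range (Loc.mk 𝔪 Y)
  let g : R → R := fun y => s • y
  have hg : Function.Injective g := fun y z h => Subtype.ext
    (smul_cancel 𝔪 hs (congrArg Subtype.val h))
  obtain ⟨y, hy⟩ := (Finite.injective_iff_surjective.mp hg) ⟨_, ⟨n, rfl⟩⟩
  have h1 : s • (y : Loc 𝔪 Y) = Loc.mk 𝔪 Y n := congrArg Subtype.val hy
  have h2 : x = y := smul_cancel 𝔪 hs (hn.trans h1.symm)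
  rw [h2]
  exact y.2

/-- exactness after localisation -/
theorem loc_exact (δ : Y →ₗ[B] Y)
    (hex : ∀ y, δ y = 0 → ∃ s ∉ 𝔪, ∃ z, s • y = δ z) (x : Loc 𝔪 Y)
    (hx : Loc.map 𝔪 δ x = 0) : ∃ z, Loc.map 𝔪 δ z = x := by
  obtain ⟨s, hs, n, hn⟩ := Loc.exists_smul x
  have h1 : Loc.mk 𝔪 Y (δ n) = 0 := by
    rw [← Loc.map_mk, ← hn, map_smul, hx, smul_zero]
  obtain ⟨t, ht, h2⟩ := Loc.mk_eq_zero.mp h1
  rw [← map_smul] at h2
  obtain ⟨s', hs', z, hz⟩ := hex _ h2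
  have h3 := mul_notMem 𝔪 hs' (mul_notMem 𝔪 ht hs)
  obtain ⟨y, hy⟩ := exists_smul_eq 𝔪 h3 (Loc.mk 𝔪 Y z)
  refine ⟨y, smul_cancel 𝔪 h3 ?_⟩
  rw [← map_smul, hy, Loc.map_mk, ← hz, map_smul, map_smul, mul_smul, mul_smul, hn]

end Cmp

section Final

open IsLocalRing

variable {σ O T M : Type} [CommRing O] [IsDomain O] [IsDiscreteValuationRing O] [CommRing T]
  [Algebra O T] [AddCommGroup M] [Module O M] [Module T M]
  (htow : ∀ (o : O) (x : M), algebraMap O T o • x = o • x)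
  (φ : MvPolynomial σ O →ₐ[O] T) (hφ : Function.Surjective φ)
  (𝔪 : Ideal (MvPolynomial σ O)) [h𝔪 : 𝔪.IsPrime] {N V Y : Type}
  [AddCommGroup N] [Module (MvPolynomial σ O) N] [AddCommGroup V] [Module (MvPolynomial σ O) V]
  [AddCommGroup Y] [Module (MvPolynomial σ O) Y]
  (e : M ≃+ Loc 𝔪 N) (he : ∀ P x, e (φ P • x) = P • e x)
  (f : N →ₗ[MvPolynomial σ O] V) (j : Y →ₗ[MvPolynomial σ O] V)

include htow he in
theorem mem_iff_map (hker : ∀ z, f z = 0 → ∃ a ∈ maximalIdeal O, ∃ w, z =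
      (MvPolynomial.C a : MvPolynomial σ O) • w)
    (hker' : ∀ a ∈ maximalIdeal O, ∀ w, f ((MvPolynomial.C a : MvPolynomial σ O) • w) = 0)
    (x : M) : x ∈ (maximalIdeal O • ⊤ : Submodule O M) ↔ Loc.map 𝔪 f (e x) = 0 := by
  obtain ⟨ϖ, hϖ⟩ := IsDiscreteValuationRing.exists_irreducible O
  have hmax : maximalIdeal O = Ideal.span {ϖ} := (hϖ.maximalIdeal_eq)
  have hϖm : ϖ ∈ maximalIdeal O := by rw [hmax]; exact Ideal.mem_span_singleton_self ϖ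
  have hsm : ∀ (a : O) (x : M), e (a • x) = (MvPolynomial.C a : MvPolynomial σ O) • e x := by
    intro a x
    rw [← he, ← htow]
    congr 2
    exact (φ.commutes a).symm
  have h1 : x ∈ (maximalIdeal O • ⊤ : Submodule O M) ↔ ∃ w : M, ϖ • w = x := by
    rw [hmax, Submodule.ideal_span_singleton_smul, Submodule.mem_smul_pointwise_iff_exists]
    constructor
    · rintro ⟨w, -, hw⟩
      exact ⟨w, hw⟩
    · rintro ⟨w, hw⟩
      exact ⟨w, trivial, hw⟩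
  rw [h1]
  constructor
  · rintro ⟨w, rfl⟩
    rw [hsm]
    exact loc_ker' 𝔪 f (hker' ϖ hϖm) _
  · intro hx
    obtain ⟨w, hw⟩ := loc_ker 𝔪 f (c := MvPolynomial.C ϖ) (fun z hz => by
      obtain ⟨a, ha, w, hw⟩ := hker z hz
      rw [hmax, Ideal.mem_span_singleton] at ha
      obtain ⟨b, rfl⟩ := ha
      exact ⟨(MvPolynomial.C b : MvPolynomial σ O) • w, by rw [hw, map_mul, mul_smul]⟩) _ hx
    refine ⟨e.symm w, e.injective ?_⟩
    rw [hsm, e.apply_symm_apply, hw]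

include htow hφ he in
/-- **transfer of exactness** to the localised module -/
theorem exact_transfer (hj : Function.Injective j) (hf : ∀ y, ∃ z, f z = j y)
    {η : MvPolynomial σ O} (hη : η ∉ 𝔪) (hfη : ∀ z, ∃ y, j y = η • f z)
    (hker : ∀ z, f z = 0 → ∃ a ∈ maximalIdeal O, ∃ w, z =
      (MvPolynomial.C a : MvPolynomial σ O) • w)
    (hker' : ∀ a ∈ maximalIdeal O, ∀ w, f ((MvPolynomial.C a : MvPolynomial σ O) • w) = 0)
    [Module T (Loc 𝔪 Y)] (hTY : ∀ P (x : Loc 𝔪 Y), φ P • x = P • x)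
    (n₀ n₁ n₂ n₃ : T)
    (hex : ∀ x y : Loc 𝔪 Y, n₀ • x + n₁ • y = 0 → n₂ • x + n₃ • y = 0 →
      ∃ u v : Loc 𝔪 Y, x = n₀ • u + n₁ • v ∧ y = n₂ • u + n₃ • v) (x y : M)
    (hx : n₀ • x + n₁ • y ∈ (maximalIdeal O • ⊤ : Submodule O M))
    (hy : n₂ • x + n₃ • y ∈ (maximalIdeal O • ⊤ : Submodule O M)) :
    ∃ u v : M, x - (n₀ • u + n₁ • v) ∈ (maximalIdeal O • ⊤ : Submodule O M) ∧
      y - (n₂ • u + n₃ • v) ∈ (maximalIdeal O • ⊤ : Submodule O M) := by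
  obtain ⟨P₀, rfl⟩ := hφ n₀
  obtain ⟨P₁, rfl⟩ := hφ n₁
  obtain ⟨P₂, rfl⟩ := hφ n₂
  obtain ⟨P₃, rfl⟩ := hφ n₃
  have hinj := loc_injective 𝔪 j hj
  have hm := mem_iff_map htow φ 𝔪 e he f hker hker'
  obtain ⟨x', hx'⟩ := loc_exists_of' 𝔪 f j hη hfη (e x)
  obtain ⟨y', hy'⟩ := loc_exists_of' 𝔪 f j hη hfη (e y)
  rw [hm] at hx hy
  simp only [map_add, he, map_smul] at hx hy
  rw [← hx', ← hy'] at hx hy
  obtain ⟨u', v', hu, hv⟩ := hex x' y'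
    (by
      apply hinj
      rw [hTY, hTY, map_add, map_smul, map_smul, hx, map_zero])
    (by
      apply hinj
      rw [hTY, hTY, map_add, map_smul, map_smul, hy, map_zero])
  obtain ⟨u, hu'⟩ := loc_exists_of 𝔪 f j hf u'
  obtain ⟨v, hv'⟩ := loc_exists_of 𝔪 f j hf v'
  refine ⟨e.symm u, e.symm v, ?_, ?_⟩
  · rw [hm]
    simp only [map_sub, map_add, he, map_smul, e.apply_symm_apply]
    rw [hu', hv', ← hx', hu, hTY, hTY, map_add, map_smul, map_smul, sub_self]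
  · rw [hm]
    simp only [map_sub, map_add, he, map_smul, e.apply_symm_apply]
    rw [hu', hv', ← hy', hv, hTY, hTY, map_add, map_smul, map_smul, sub_self]

end Final

end Fermat.Agent.Mor

end
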