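import Fermat.Agent.Mor.HomG
import Fermat.Agent.Mor.LocM
import Fermat.Agent.Mor.CmpP
import Fermat.Agent.Tate.Input

/-!
The reduction of the module of level `Γ₀(n)` and the `p`-torsion of the Jacobian.
-/

set_option autoImplicit false
set_option linter.unusedSectionVars false

noncomputable section

namespace Fermat.Agent.Mor

open IsLocalRing Module
open Fermat.Agent.TW Fermat.Agent.TWDeg Fermat.Agent.Tate
open CongruenceSubgroup ModularCurve.Period HeckeHom
open scoped MatrixGroups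

/-- reduction of homomorphisms -/
def resH (G : Type) [AddGroup G] {O k : Type} [CommRing O] [Field k] (κ : O →+* k) :
    (G →+ O) →+ (G →+ k) where
  toFun φ := (κ : O →+ k).comp φ
  map_zero' := AddMonoidHom.comp_zero _
  map_add' _ _ := AddMonoidHom.comp_add _ _ _

theorem resH_apply {G : Type} [AddGroup G] {O k : Type} [CommRing O] [Field k] (κ : O →+* k)
    (φ : G →+ O) (g : G) : resH G κ φ g = κ (φ g) := rfl

theorem exists_eq_smul {G : Type} [AddGroup G] {O : Type} [CommRing O] [IsDomain O]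
    [IsDiscreteValuationRing O] (φ : G →+ O)
    (h : resH G (residue O) φ = 0) : ∃ a ∈ maximalIdeal O, ∃ ψ : G →+ O, φ = a • ψ := by
  obtain ⟨ϖ, hϖ⟩ := IsDiscreteValuationRing.exists_irreducible O
  have hmax : maximalIdeal O = Ideal.span {ϖ} := hϖ.maximalIdeal_eq
  have h1 : ∀ g, ∃ b, φ g = ϖ * b := by
    intro g
    have h2 : residue O (φ g) = 0 := DFunLike.congr_fun h g
    rw [residue_eq_zero_iff, hmax, Ideal.mem_span_singleton] at h2
    exact h2
  choose ψ hψ using h1
  refine ⟨ϖ, by rw [hmax]; exact Ideal.mem_span_singleton_self ϖ,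
    { toFun := ψ, map_zero' := ?_, map_add' := fun x y => ?_ }, ?_⟩
  · apply mul_left_cancel₀ hϖ.ne_zero
    rw [← hψ, map_zero, mul_zero]
  · apply mul_left_cancel₀ hϖ.ne_zero
    rw [← hψ, map_add, hψ, hψ, mul_add]
  · exact AddMonoidHom.ext fun g => hψ g

section

variable {m n p : ℕ} [NeZero n] [hp : Fact p.Prime] (hn : n ∣ m) {O : Type} [CommRing O]
  [IsDomain O] [IsDiscreteValuationRing O] [CharZero O] [CharP (ResidueField O) p]
  [Algebra (ZMod p) (ResidueField O)]
  (I : TateInput p n (SS m)) (T : Fam (Pr m) (ZMod p) (Jp I.J p))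
  (hT : ∀ (l : Pr m) (x : Jp I.J p), Jp.val (T.t l x) =
    I.T l.1 l.2.1 (fun h => l.2.2 (h.trans hn)) (Jp.val x))

/-- the extension of scalars of the torsion -/
abbrev XJ : Type := XA T O (ResidueField O) (residue O)

/-- the comparison map -/
abbrev toH : XJ (O := O) I T →ₗ[ResidueField O] (Additive (Gamma0 n) →+ ResidueField O) :=
  XA.toHom I.C T (O := O) (κ := residue O)

include hT in
/-- Hecke compatibility of the comparison map -/
theorem toH_op (l : Pr m) (x : XJ (O := O) I T) :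
    toH I T (XA.op T O (residue O) (T.t l) x) =
      heckeHom l.2.1 (fun h => l.2.2 (h.trans hn)) (ResidueField O) (toH I T x) := by
  refine XA.ind T O (residue O) (p := fun x => toH I T (XA.op T O (residue O) (T.t l) x) =
      heckeHom l.2.1 (fun h => l.2.2 (h.trans hn)) (ResidueField O) (toH I T x)) ?_
      (fun c a => ?_) (fun _ _ hx hy => ?_) x
  · rw [map_zero, map_zero, map_zero]
  · rw [XA.op_tmul, toH, XA.toHom_tmul, XA.toHom_tmul, heckeHom_smul]
    congr 1
    have h1 : (I.C.e 1 (T.t l a) : Additive (Gamma0 n) →+ ZMod (p ^ 1)) =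
        heckeHom l.2.1 (fun h => l.2.2 (h.trans hn)) (ZMod (p ^ 1)) (I.C.e 1 a) := by
      rw [← I.hecke l.1 l.2.1 (fun h => l.2.2 (h.trans hn)) l.2.2 1 a]
      congr 1
      exact Subtype.ext (hT l a)
    change ((cst p (ResidueField O) : ZMod (p ^ 1) →+* ResidueField O) :
      ZMod (p ^ 1) →+ ResidueField O).comp (I.C.e 1 (T.t l a)) = _
    rw [h1]
    exact (heckeHom_comp _ _ _ _).symm
  · simp only [map_add] at hx hy ⊢
    rw [hx, hy]

theorem cst_red (φ : Additive (Gamma0 n) →+ ℤ_[p]) (g : Additive (Gamma0 n)) :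
    cst p (ResidueField O) (red 1 φ g) = cst p (ResidueField O) (PadicInt.toZModPow 1 (φ g)) := rfl

/-- a parabolic integral homomorphism comes from a torsion point -/
theorem exists_of_int (φ : Additive (Gamma0 n) →+ ℤ) (hφ : φ ∈ parabolicHoms ℤ (Gamma0 n) ℤ) :
    ∃ x : Jp I.J p, ∀ g, Jp.toHom (k := ResidueField O) I.C x g = ((φ g : ℤ) : ResidueField O) := by
  have h1 : (TorsCmp.castHom n ℤ_[p] ⟨φ, hφ⟩ : Additive (Gamma0 n) →+ ℤ_[p]) ∈
      parabolicHoms ℤ_[p] (Gamma0 n) ℤ_[p] := (TorsCmp.castHom n ℤ_[p] ⟨φ, hφ⟩).2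
  obtain ⟨x, hx⟩ := (I.mem_iff _).mp h1 1
  refine ⟨x, fun g => ?_⟩
  have h2 : (I.C.e 1 x) g = red 1 (TorsCmp.castHom n ℤ_[p] ⟨φ, hφ⟩ : Additive (Gamma0 n) →+ ℤ_[p]) g :=
    DFunLike.congr_fun hx g
  have h3 : cst p (ResidueField O) ((I.C.e 1 x) g) = cst p (ResidueField O)
      (PadicInt.toZModPow 1 ((φ g : ℤ) : ℤ_[p])) := congrArg _ h2
  refine h3.trans ?_
  rw [map_intCast, map_intCast]

theorem exists_lift_int {φ : Additive (Gamma0 n) →+ ℤ_[p]} :
    ∃ φ' : Additive (Gamma0 n) →+ O, ∀ g, residue O (φ' g) =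
      cst p (ResidueField O) (red 1 φ g) := by
  have hne : NeZero (p ^ 1) := ⟨pow_ne_zero 1 hp.out.ne_zero⟩
  obtain ⟨r, a, ψ, -, h⟩ := exists_decomp φ
  let b : Fin r → ℕ := fun i => (PadicInt.toZModPow 1 (a i)).val
  have hb : ∀ i, ((b i : ℕ) : ResidueField O) =
      cst p (ResidueField O) (PadicInt.toZModPow 1 (a i)) := by
    intro i
    rw [← map_natCast (cst p (ResidueField O)), ZMod.natCast_zmod_val]
  refine ⟨∑ i, ((b i : ℕ) : O) • (Int.castAddHom O).comp (ψ i), fun g => ?_⟩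
  rw [AddMonoidHom.finsetSum_apply, map_sum, cst_red, h g, map_sum, map_sum]
  refine Finset.sum_congr rfl fun i _ => ?_
  have e1 : (((b i : ℕ) : O) • (Int.castAddHom O).comp (ψ i)) g = (b i : O) * ((ψ i g : ℤ) : O) := rfl
  rw [e1, map_mul, map_natCast, map_intCast, hb, map_zsmul, map_zsmul, zsmul_eq_mul, mul_comm]

include hT in
/-- **the comparison maps** -/
theorem exists_maps
    (hsurj : ∀ a : Jp I.J p, ∃ φ : Additive (Gamma0 n) →+ ℤ_[p], I.C.e 1 a = red 1 φ) :
    ∃ (f : HA m n hn O O →ₗ[TPoly m O] HA m n hn O (ResidueField O))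
      (j : XJ (O := O) I T →ₗ[TPoly m O] HA m n hn O (ResidueField O)),
      Function.Injective j ∧ (∀ y, ∃ z, f z = j y) ∧
      (∀ l : Pr m, ((l : ℕ) : ZMod n) = 1 → ∀ z, ∃ y, j y = eis O l • f z) ∧
      (∀ z, f z = 0 → ∃ a ∈ maximalIdeal O, ∃ w, z = (MvPolynomial.C a : TPoly m O) • w) ∧
      ∀ a ∈ maximalIdeal O, ∀ w, f ((MvPolynomial.C a : TPoly m O) • w) = 0 := by
  obtain ⟨EO, hEO, hEOp⟩ := exists_homG (NeZero.ne n) hn O O
  obtain ⟨Ek, hEk, -⟩ := exists_homG (NeZero.ne n) hn O (ResidueField O)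
  have hEk' : ∀ (l : Pr m) φ, Ek.symm (heckeHom l.2.1 (fun h => l.2.2 (h.trans hn))
      (ResidueField O) φ) = (MvPolynomial.X l : TPoly m O) • Ek.symm φ := by
    intro l φ
    apply Ek.injective
    rw [hEk, LinearEquiv.apply_symm_apply, LinearEquiv.apply_symm_apply]
  let rs := resH (Additive (Gamma0 n)) (residue O)
  have hrs : ∀ (a : O) φ, rs (a • φ) = residue O a • rs φ := fun a φ =>
    AddMonoidHom.ext fun g => map_mul (residue O) a (φ g)
  have hks : ∀ (a : O) (φ : Additive (Gamma0 n) →+ ResidueField O), residue O a • φ = a • φ :=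
    fun a φ => rfl
  let f₀ : HA m n hn O O →ₗ[O] HA m n hn O (ResidueField O) :=
    { toFun := fun z => Ek.symm (rs (EO z))
      map_add' := fun x y => by rw [map_add, map_add, map_add]
      map_smul' := fun a x => by
        rw [map_smul, hrs, hks, map_smul]
        rfl }
  let f : HA m n hn O O →ₗ[TPoly m O] HA m n hn O (ResidueField O) :=
    Stg.polyLin f₀ fun l x => by
      rw [← Stg.X_smul, ← Stg.X_smul]
      change Ek.symm (rs (EO _)) = _ • Ek.symm (rs (EO x))
      rw [hEO, ← hEk']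
      congr 1
      exact (heckeHom_comp _ _ ((residue O : O →+* ResidueField O) : O →+ ResidueField O) _).symm
  have hf : ∀ z, f z = Ek.symm (rs (EO z)) := fun z => rfl
  let j₀ : XJ (O := O) I T →+ HA m n hn O (ResidueField O) :=
    { toFun := fun x => Ek.symm (toH I T x)
      map_zero' := by rw [map_zero, map_zero]
      map_add' := fun x y => by rw [map_add, map_add] }
  have hj₀ : ∀ x, j₀ x = Ek.symm (toH I T x) := fun x => rfl
  let j : XJ (O := O) I T →ₗ[TPoly m O] HA m n hn O (ResidueField O) :=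
    { toFun := j₀
      map_add' := map_add j₀
      map_smul' := fun P x => by
        refine XA.map_smul_of T O (residue O) j₀ (fun a x => ?_) (fun l x => ?_) P x
        · rw [hj₀, hj₀, map_smul, hks, map_smul]
          exact (Stg.C_smul _ _ a _).symm
        · rw [hj₀, hj₀, toH_op hn I T hT, hEk'] }
  have hj : ∀ x, j x = Ek.symm (toH I T x) := fun x => rfl
  refine ⟨f, j, fun x y h => ?_, fun y => ?_, fun l hl z => ?_, fun z hz => ?_, fun a ha w => ?_⟩
  · exact XA.toHom_injective I.C T (Ek.symm.injective h)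
  · refine XA.ind T O (residue O) (p := fun y => ∃ z, f z = j y) ⟨0, by rw [map_zero, map_zero]⟩
      (fun c a => ?_) (fun x y hx hy => ?_) y
    · obtain ⟨φ, hφ⟩ := hsurj a
      obtain ⟨φ', hφ'⟩ := exists_lift_int (O := O) (φ := φ)
      obtain ⟨o, rfl⟩ := residue_surjective c
      refine ⟨EO.symm (o • φ'), ?_⟩
      rw [hf, hj, LinearEquiv.apply_symm_apply, hrs]
      congr 1
      rw [toH, XA.toHom_tmul]
      congr 1
      refine AddMonoidHom.ext fun g => ?_
      rw [Jp.toHom_apply, hφ]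
      exact hφ' g
    · obtain ⟨z, hz⟩ := hx
      obtain ⟨z', hz'⟩ := hy
      exact ⟨z + z', by rw [map_add, map_add, hz, hz']⟩
  · have h1 := hEOp (fun N a hN h => by
      rw [nsmul_eq_mul, mul_eq_zero] at h
      exact h.resolve_left (Nat.cast_ne_zero.mpr hN)) l hl z
    obtain ⟨r, a, ψ, h0, h⟩ := exists_decomp (EO (eis O l • z))
    have hψ : ∀ i, ψ i ∈ parabolicHoms ℤ (Gamma0 n) ℤ := fun i γ hγ => h0 _ (h1 γ hγ) i
    choose x hx using fun i => exists_of_int (O := O) I (ψ i) (hψ i)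
    refine ⟨∑ i, XA.tmul T O (residue O) (residue O (a i)) (x i), ?_⟩
    rw [← map_smul, hf, hj]
    congr 1
    rw [toH, map_sum]
    refine AddMonoidHom.ext fun g => ?_
    rw [AddMonoidHom.finsetSum_apply]
    change _ = residue O (EO (eis O l • z) g)
    rw [h g, map_sum]
    refine Finset.sum_congr rfl fun i _ => ?_
    rw [XA.toHom_tmul]
    change residue O (a i) * Jp.toHom I.C (x i) g = _
    rw [hx, zsmul_eq_mul, map_mul, map_intCast, mul_comm]
  · have h1 : rs (EO z) = 0 := Ek.symm.injective (hz.trans (map_zero Ek.symm).symm)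
    obtain ⟨a, ha, ψ, hψ⟩ := exists_eq_smul (EO z) h1
    refine ⟨a, ha, EO.symm ψ, EO.injective ?_⟩
    rw [Stg.C_smul, map_smul, LinearEquiv.apply_symm_apply, hψ]
  · rw [Stg.C_smul, hf, map_smul, hrs, (residue_eq_zero_iff a).mpr ha, zero_smul, map_zero]

end

end Fermat.Agent.Mor

end
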