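import Fermat.Agent.Mor.Abs
import Fermat.Agent.Mor.Red
import Fermat.Agent.RT8.ModMain

/-!
Exactness of `r(τ) - 1` on the reduction of the localised module of level `Γ₀(n)`.
-/

set_option autoImplicit false
set_option linter.unusedSectionVars false

noncomputable section

namespace Fermat.Agent.Mor

open IsLocalRing Module
open Fermat.Agent.TW Fermat.Agent.TWDeg Fermat.Agent.Tate
open CongruenceSubgroup ModularCurve.Period HeckeHom
open Fermat.Agent.DefRing (M2 MatCont mapRep mapRep_apply ofMat matOf Red SliceData)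
open scoped MatrixGroups

local notation "GQ" => (AlgebraicClosure ℚ ≃ₐ[ℚ] AlgebraicClosure ℚ)

/-- module structures over quotient rings -/
theorem exists_module {R Tr X : Type} [CommRing R] [CommRing Tr] [AddCommGroup X] [Module R X]
    (φ : R →+* Tr) (hφ : Function.Surjective φ)
    (hk : ∀ P, φ P = 0 → ∀ x : X, P • x = 0) :
    ∃ i : Module Tr X, ∀ (P : R) (x : X), i.smul (φ P) x = P • x := by
  let ψ : Tr →+* AddMonoid.End X := φ.liftOfSurjective hφ ⟨Module.toAddMonoidEnd R X,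
    fun P hP => AddMonoidHom.ext fun x => hk P hP x⟩
  have hψ : ∀ P, ψ (φ P) = Module.toAddMonoidEnd R X P := fun P =>
    RingHom.liftOfRightInverse_comp_apply _ _ _ ⟨Module.toAddMonoidEnd R X,
    fun P hP => AddMonoidHom.ext fun x => hk P hP x⟩ P
  refine ⟨Module.compHom X ψ, fun P x => ?_⟩
  change ψ (φ P) x = P • x
  rw [hψ]
  rfl

section Gal

variable {ι F k A : Type} [Field F] [Field k] [Algebra F k] [AddCommGroup A] [Module F A]
  (T : Fam ι F A) (O : Type) [CommRing O] (κ : O →+* k)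
  (g : GQ →* Module.End F A) (hg : ∀ σ i, g σ * T.t i = T.t i * g σ)
  (𝔪 : Ideal (MvPolynomial ι O)) [𝔪.IsPrime]

/-- the Galois action on the localisation -/
def galL (σ : GQ) : Loc 𝔪 (XA T O k κ) →ₗ[MvPolynomial ι O] Loc 𝔪 (XA T O k κ) :=
  Loc.map 𝔪 (XA.lin T O κ (g σ) (hg σ))

theorem galL_mk (σ : GQ) (x : XA T O k κ) :
    galL T O κ g hg 𝔪 σ (Loc.mk 𝔪 _ x) = Loc.mk 𝔪 _ (XA.op T O κ (g σ) x) := by
  rw [galL, Loc.map_mk, XA.lin_apply]

theorem galL_one (hs : Function.Surjective (Loc.mk 𝔪 (XA T O k κ))) (x : Loc 𝔪 (XA T O k κ)) :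
    galL T O κ g hg 𝔪 1 x = x := by
  obtain ⟨x, rfl⟩ := hs x
  rw [galL_mk, map_one, XA.op_one]
  rfl

theorem galL_mul (hs : Function.Surjective (Loc.mk 𝔪 (XA T O k κ))) (σ τ : GQ)
    (x : Loc 𝔪 (XA T O k κ)) :
    galL T O κ g hg 𝔪 (σ * τ) x = galL T O κ g hg 𝔪 σ (galL T O κ g hg 𝔪 τ x) := by
  obtain ⟨x, rfl⟩ := hs x
  rw [galL_mk, galL_mk, galL_mk, map_mul, XA.op_mul]
  rfl

variable {Tr : Type} [CommRing Tr] [Module Tr (Loc 𝔪 (XA T O k κ))]
  (φ : MvPolynomial ι O →+* Tr) (hφ : Function.Surjective φ)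
  (hs' : ∀ P (x : Loc 𝔪 (XA T O k κ)), φ P • x = P • x)

/-- the Galois action, linear over the quotient ring -/
def galT (hs : Function.Surjective (Loc.mk 𝔪 (XA T O k κ))) :
    GQ →* Module.End Tr (Loc 𝔪 (XA T O k κ)) where
  toFun σ :=
    { toFun := galL T O κ g hg 𝔪 σ
      map_add' := map_add _
      map_smul' := fun t x => by
        obtain ⟨P, rfl⟩ := hφ t
        rw [hs', map_smul, RingHom.id_apply, hs'] }
  map_one' := LinearMap.ext fun x => galL_one T O κ g hg 𝔪 hs x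
  map_mul' σ τ := LinearMap.ext fun x => galL_mul T O κ g hg 𝔪 hs σ τ x

theorem galT_mk (hs : Function.Surjective (Loc.mk 𝔪 (XA T O k κ))) (σ : GQ) (x : XA T O k κ) :
    galT T O κ g hg 𝔪 φ hφ hs' hs σ (Loc.mk 𝔪 _ x) = Loc.mk 𝔪 _ (XA.op T O κ (g σ) x) :=
  galL_mk T O κ g hg 𝔪 σ x

end Gal

section Main

variable {m n p : ℕ} [NeZero n] [hp : Fact p.Prime] (hp2 : p ≠ 2) (hn : n ∣ m) (hm : m ≠ 0)
  (hpm : p ∣ m) {O : Type} [CommRing O] [IsDomain O] [IsDiscreteValuationRing O]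
  [Finite (ResidueField O)] [CharZero O] [CharP (ResidueField O) p]
  [Algebra (ZMod p) (ResidueField O)]
  {rbar : GQ →* M2 (ResidueField O)}
  (hspan : Submodule.span (ResidueField O) (Set.range rbar) = ⊤)
  (𝔪 : Ideal (TPoly m O)) [𝔪.IsPrime]
  (I : TateInput p n (SS m)) (T : Fam (Pr m) (ZMod p) (Jp I.J p))
  (hT : ∀ (l : Pr m) (x : Jp I.J p), Jp.val (T.t l x) =
    I.T l.1 l.2.1 (fun h => l.2.2 (h.trans hn)) (Jp.val x))
  (hfin : Finite (Jp I.J p))

include hT in
theorem gal_comm (σ : GQ) (l : Pr m) : Jp.gal I.J p GQ σ * T.t l = T.t l * Jp.gal I.J p GQ σ := by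
  refine LinearMap.ext fun x => Jp.val_injective ?_
  have h := I.T_smul l.1 l.2.1 (fun h => l.2.2 (h.trans hn)) σ (Jp.val x)
    ⟨1, by rw [pow_one]; exact Jp.nsmul_val x⟩
  change Jp.val (Jp.gal I.J p GQ σ (T.t l x)) = Jp.val (T.t l (Jp.gal I.J p GQ σ x))
  rw [Jp.val_gal, hT, hT, Jp.val_gal, h]

include hfin in
theorem gal_cont : ∃ L : IntermediateField ℚ (AlgebraicClosure ℚ), FiniteDimensional ℚ L ∧
      ∀ σ : GQ, (∀ x ∈ L, σ x = x) → Jp.gal I.J p GQ σ = 1 := by
  choose L hL h using fun x : Jp I.J p => I.level (Jp.val x)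
    ⟨1, by rw [pow_one]; exact Jp.nsmul_val x⟩
  have hfd : FiniteDimensional ℚ (⨆ x, L x : IntermediateField ℚ (AlgebraicClosure ℚ)) :=
    IntermediateField.finiteDimensional_iSup_of_finite
  refine ⟨⨆ x, L x, hfd, fun σ hσ => LinearMap.ext fun x => Jp.val_injective ?_⟩
  rw [Jp.val_gal]
  exact h x σ fun z hz => hσ z ((le_iSup L x) hz)

include hT hpm in
theorem gal_frob (l : Pr m) (B : ValuationSubring (AlgebraicClosure ℚ)) (hB : B.LiesOverPrime l)
    (τ : GQ) (hτ : B.IsFrobeniusAt τ l) (a : Jp I.J p) :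
    Jp.gal I.J p GQ τ (Jp.gal I.J p GQ τ a) - T.t l (Jp.gal I.J p GQ τ a) + (l : ℕ) • a = 0 := by
  apply Jp.val_injective
  rw [map_add, map_sub, Jp.val_gal, hT, Jp.val_gal, map_nsmul, map_zero]
  refine I.frobenius l.1 l.2.1 _ l.2.2 (fun h => l.2.2 (h ▸ hpm)) B hB τ hτ (Jp.val a)
    ⟨1, by rw [pow_one]; exact Jp.nsmul_val a⟩

include hfin in
theorem finite_XJ : Finite (XJ (O := O) I T) := by
  have h1 : Module.Finite (ZMod p) (Jp I.J p) := Module.Finite.of_finite
  have h2 : Module.Finite (ResidueField O) (XJ (O := O) I T) :=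
    inferInstanceAs (Module.Finite (ResidueField O) (TensorProduct (ZMod p) (ResidueField O)
      (Jp I.J p)))
  exact Module.finite_of_finite (ResidueField O)

variable {Tr : Type} [CommRing Tr] [IsLocalRing Tr] [Algebra O Tr]
  [IsLocalHom (algebraMap O Tr)] (φ : TPoly m O →ₐ[O] Tr) (hφ : Function.Surjective φ)
  (r : GQ →* M2 Tr) (hc : MatCont Tr r) (hred : Red rbar r)
  (htr : ∀ (l : Pr m) (B : ValuationSubring (AlgebraicClosure ℚ)), B.LiesOverPrime l →
    ∀ τ : GQ, B.IsFrobeniusAt τ l → (r τ).trace = φ (MvPolynomial.X l) ∧ (r τ).det = (l : ℕ))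
  [Module Tr (Loc 𝔪 (XJ (O := O) I T))]
  (hs' : ∀ P (x : Loc 𝔪 (XJ (O := O) I T)), φ P • x = P • x)

include hp2 hm hpm hspan hT hfin hφ hc hred htr hs' in
/-- the action of the matrix algebra on the localised torsion -/
theorem exists_psi : ∃ Ψ : M2 Tr →ₐ[Tr] Module.End Tr (Loc 𝔪 (XJ (O := O) I T)),
    ∀ σ x, Ψ (r σ) (Loc.mk 𝔪 _ x) = Loc.mk 𝔪 _ (XA.op T O (residue O) (Jp.gal I.J p GQ σ) x) := by
  have hX : Finite (XJ (O := O) I T) := finite_XJ I T hfin
  have hs : Function.Surjective (Loc.mk 𝔪 (XJ (O := O) I T)) := mk_surjective_of_finite 𝔪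
  have hXL : Finite (Loc 𝔪 (XJ (O := O) I T)) := Finite.of_surjective _ hs
  set gM := galT T O (residue O) (Jp.gal I.J p GQ) (gal_comm hn I T hT) 𝔪 (φ : TPoly m O →+* Tr)
    hφ hs' hs with hgM
  have hmk : ∀ σ x, gM σ (Loc.mk 𝔪 _ x) =
      Loc.mk 𝔪 _ (XA.op T O (residue O) (Jp.gal I.J p GQ σ) x) := fun σ x =>
    galT_mk T O (residue O) (Jp.gal I.J p GQ) (gal_comm hn I T hT) 𝔪 (φ : TPoly m O →+* Tr)
      hφ hs' hs σ x
  obtain ⟨N, hN⟩ := FlatT.exists_pow_smul_eq_bot (T := Tr) (X := Loc 𝔪 (XJ (O := O) I T))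
  have hp0 : ∀ x : Loc 𝔪 (XJ (O := O) I T), p • x = 0 := by
    intro x
    obtain ⟨x, rfl⟩ := hs x
    rw [← map_nsmul]
    have h1 : p • x = 0 := by
      rw [← Nat.cast_smul_eq_nsmul (ResidueField O), CharP.cast_eq_zero, zero_smul]
    rw [h1, map_zero]
  obtain ⟨Ψ, hΨ⟩ := exists_matrix_action (𝒪 := O) hspan r hc hred gM m.divisors
    (by
      obtain ⟨L, hL, h⟩ := gal_cont I hfin
      refine ⟨L, hL, fun σ hσ => LinearMap.ext fun x => ?_⟩
      obtain ⟨x, rfl⟩ := hs x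
      rw [hmk, h σ hσ, XA.op_one]
      rfl)
    (by
      intro ℓ hℓ hℓS
      have hℓm : ¬ ℓ ∣ m := fun h => hℓS (Nat.mem_divisors.mpr ⟨h, hm⟩)
      let l : Pr m := ⟨ℓ, hℓ, hℓm⟩
      refine ⟨φ (MvPolynomial.X l), fun P hP τ hτ => ⟨?_, (htr l P hP τ hτ).1,
        (htr l P hP τ hτ).2⟩⟩
      refine LinearMap.ext fun x => ?_
      obtain ⟨x, rfl⟩ := hs x
      rw [LinearMap.add_apply, LinearMap.sub_apply, Module.End.mul_apply, LinearMap.smul_apply,
        LinearMap.smul_apply, Module.End.one_apply, LinearMap.zero_apply, hmk, hmk, hs',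
        Nat.cast_smul_eq_nsmul, ← map_smul, ← map_sub, ← map_nsmul, ← map_add, XA.X_smul]
      have key : XA.op T O (residue O) (Jp.gal I.J p GQ τ)
          (XA.op T O (residue O) (Jp.gal I.J p GQ τ) x) -
          XA.op T O (residue O) (T.t l) (XA.op T O (residue O) (Jp.gal I.J p GQ τ) x) +
          ℓ • x = 0 := by
        refine XA.ind T O (residue O) (p := fun x => XA.op T O (residue O) (Jp.gal I.J p GQ τ)
          (XA.op T O (residue O) (Jp.gal I.J p GQ τ) x) -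
          XA.op T O (residue O) (T.t l) (XA.op T O (residue O) (Jp.gal I.J p GQ τ) x) +
          ℓ • x = 0) ?_ (fun c a => ?_) (fun x y hx hy => ?_) x
        · rw [map_zero, map_zero, map_zero, sub_zero, zero_add, smul_zero]
        · simp only [XA.op_tmul]
          have h1 := gal_frob hn hpm I T hT l P hP τ hτ a
          have h2 : ∀ b b' : Jp I.J p, XA.tmul T O (residue O) c b - XA.tmul T O (residue O) c b' =
              XA.tmul T O (residue O) c (b - b') := fun b b' =>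
            (TensorProduct.tmul_sub _ _ _).symm
          have h3 : ℓ • XA.tmul T O (residue O) c a = XA.tmul T O (residue O) c (ℓ • a) :=
            (map_nsmul (TensorProduct.mk (ZMod p) (ResidueField O) (Jp I.J p) c) ℓ a).symm
          rw [h2, h3, ← XA.tmul_add, h1]
          exact TensorProduct.tmul_zero _ _
        · simp only [map_add, smul_add] at hx hy ⊢
          have h5 := congrArg₂ (· + ·) hx hy
          simp only [add_zero] at h5
          rw [← h5]
          abel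
      rw [key, map_zero])
    N hN (fun x hx => by
      have hodd : ∃ q, p = 2 * q + 1 := by
        obtain ⟨q, hq⟩ := hp.out.odd_of_ne_two hp2
        exact ⟨q, hq⟩
      obtain ⟨q, hq⟩ := hodd
      have h1 : (2 * q + 1) • x = 0 :=
        (congrArg (fun N : ℕ => N • x) hq).symm.trans (hp0 x)
      rw [add_smul, one_smul, mul_comm, mul_smul, two_smul, hx, smul_zero, zero_add] at h1
      exact h1)
  exact ⟨Ψ, fun σ x => by rw [hΨ, hmk]⟩

end Main

end Fermat.Agent.Mor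

end
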