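import Fermat.Agent.Ribet.Idem

/-!
Exactness at a maximal ideal, via idempotents.
-/

set_option autoImplicit false
set_option linter.unusedSectionVars false

namespace Fermat.Agent.Mor

open Fermat.Agent.Ribet

section

variable {R H J G : Type} [CommRing R] [CommRing H] [AddCommGroup J] [Module H J] [Group G]
  [DistribMulAction G J] [SMulCommClass G H J] (ρ : R →+* H) (p : ℕ)

theorem exists_idem_tors (hfin : Finite {x : J // p • x = 0}) (𝔪 : Ideal R) [𝔪.IsMaximal] :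
    ∃ (e : R) (k : ℕ), (∀ x : J, p • x = 0 → ρ e • ρ e • x = ρ e • x) ∧
      (∀ t ∈ 𝔪 ^ k, ∀ x : J, p • x = 0 → ρ t • ρ e • x = 0) ∧
      ∀ x : J, p • x = 0 → ∃ s ∉ 𝔪, ρ s • (x - ρ e • x) = 0 := by
  let _ : Module R J := Module.compHom _ ρ
  let V := Submodule.torsionBy R J (p : R)
  have hV : ∀ x : J, x ∈ V ↔ p • x = 0 := fun x => by
    rw [Submodule.mem_torsionBy_iff, Nat.cast_smul_eq_nsmul]
  have hfV : Finite V := by
    refine Finite.of_injective (β := {x : J // p • x = 0}) (fun x => ⟨x.1, (hV _).mp x.2⟩)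
      fun x y h => Subtype.ext ?_
    exact congrArg (fun z : {x : J // p • x = 0} => z.1) h
  obtain ⟨e, k, h1, h2, -, h4⟩ := exists_idem (V := V) 𝔪
  refine ⟨e, k, fun x hx => congrArg Subtype.val (h1 ⟨x, (hV x).mpr hx⟩),
    fun t ht x hx => congrArg Subtype.val (h2 t ht ⟨x, (hV x).mpr hx⟩), fun x hx => ?_⟩
  obtain ⟨s, hs, hsx⟩ := h4 ⟨x, (hV x).mpr hx⟩
  exact ⟨s, hs, congrArg Subtype.val hsx⟩

theorem exact_of_idem (hfin : Finite {x : J // p • x = 0}) (𝔪 : Ideal R) [𝔪.IsMaximal] (τ : G)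
    (hJ : ∀ (e : R) (k : ℕ), (∀ x : J, p • x = 0 → ρ e • ρ e • x = ρ e • x) →
      (∀ t ∈ 𝔪 ^ k, ∀ x : J, p • x = 0 → ρ t • ρ e • x = 0) →
      ∀ x : J, p • x = 0 → ρ e • x = x → τ • x = x →
        ∃ z : J, p • z = 0 ∧ ρ e • z = z ∧ τ • z - z = x) (x : J) (hx : p • x = 0)
    (hτx : τ • x = x) :
    ∃ s : R, s ∉ 𝔪 ∧ ∃ z : J, p • z = 0 ∧ ρ s • x = τ • z - z := by
  obtain ⟨e, k, h1, h2, h4⟩ := exists_idem_tors ρ p hfin 𝔪
  obtain ⟨s, hs, hsx⟩ := h4 x hx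
  have hpe : p • (ρ e • x) = 0 := by rw [smul_comm, hx, smul_zero]
  obtain ⟨z, hz, -, hzx⟩ := hJ e k h1 h2 (ρ e • x) hpe (h1 x hx) (by rw [smul_comm τ, hτx])
  refine ⟨s, hs, ρ s • z, by rw [smul_comm, hz, smul_zero], ?_⟩
  rw [smul_sub, sub_eq_zero] at hsx
  rw [smul_comm τ, ← smul_sub, hzx, hsx]

end

end Fermat.Agent.Mor
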