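import Fermat.Agent.Mor.Main
import Fermat.Agent.Mor.IdemT
import Fermat.Agent.FlatT.Concrete

/-!
**Exactness of `r(τ) - 1`** from exactness of `τ - 1` on the `p`-torsion of `J₀(n)`.
-/

set_option autoImplicit false
set_option linter.unusedSectionVars false

noncomputable section

namespace Fermat.Agent.Mor

open IsLocalRing Module
open Fermat.Agent.TW Fermat.Agent.TWDeg Fermat.Agent.Tate Fermat.Agent.Ribet Fermat.Agent.MzGal
open CongruenceSubgroup ModularCurve.Period HeckeHom ModularCurve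
open Fermat.Agent.DefRing (M2 MatCont mapRep mapRep_apply ofMat matOf Red SliceData)
open scoped MatrixGroups

local notation "GQ" => (AlgebraicClosure ℚ ≃ₐ[ℚ] AlgebraicClosure ℚ)

section Concrete

variable {m n : ℕ} (p : ℕ) [NeZero n] [hp : Fact p.Prime] (hn : n ∣ m)

theorem dvd_of (hn : n ∣ m) : ∀ q : ℕ, q.Prime → q ∣ n → q ∣ m := fun _ _ h => h.trans hn

/-- the Tate input with the excluded primes dividing `m` -/
def IN : TateInput p n (SS m) := FlatT.jIn n p (SS m) (fun q hq h => dvd_of hn q hq h)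

include hn in
theorem Tj_comm (l l' : Pr m) (x : JZero n) : Tj l (Tj l' x) = Tj l' (Tj l x) := by
  rw [← ren_X_smul (dvd_of hn), ← ren_X_smul (dvd_of hn), ← ren_X_smul (dvd_of hn),
    ← ren_X_smul (dvd_of hn), smul_comm]

/-- the Hecke operators on the torsion -/
def TN : Fam (Pr m) (ZMod p) (Jp (IN p hn).J p) where
  t l := Jp.endo (J := JZero n) (Tj l)
  comm l l' := Jp.endo_comm (J := JZero n) (Tj_comm hn l l')

theorem TN_val (l : Pr m) (x : Jp (IN p hn).J p) : Jp.val ((TN p hn).t l x) =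
      (IN p hn).T l.1 l.2.1 (fun h => l.2.2 (h.trans hn)) (Jp.val x) := rfl

theorem finite_Jp : Finite (Jp (IN p hn).J p) := by
  have h : Finite (Submodule.torsionBy ℤ (IN p hn).J ((p ^ 1 : ℕ) : ℤ)) :=
    FlatT.finite_jIn n p (SS m) (fun q hq h => dvd_of hn q hq h) 1
  refine Jp.finite ?_
  refine Finite.of_injective (β := Submodule.torsionBy ℤ (IN p hn).J ((p ^ 1 : ℕ) : ℤ))
    (fun x => ⟨x.1, by
      rw [Submodule.mem_torsionBy_iff, pow_one, natCast_zsmul]
      exact x.2⟩) fun x y h => Subtype.ext ?_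
  exact congrArg (fun z : Submodule.torsionBy ℤ (IN p hn).J ((p ^ 1 : ℕ) : ℤ) => z.1) h

theorem surj_Jp (a : Jp (IN p hn).J p) :
    ∃ φ : Additive (Gamma0 n) →+ ℤ_[p], (IN p hn).C.e 1 a = red 1 φ := by
  obtain ⟨φ, hφ⟩ := ZEnd.exists_prJ_eq (N := n) (p := p) 1 a
  refine ⟨φ, ?_⟩
  have h := e_pr (TorsCmp.comparisonJ n p) (TateInput.Lam p n) (TorsCmp.comparisonJ_mem_iff n p) 1 φ
  rw [← h]
  exact congrArg _ hφ.symm

/-- the Hecke ring acts on `J₀(n)` -/
def actH : TPoly m ℤ →+* Module.End ℤ (JZero n) := (hEval n).comp (ren (dvd_of hn))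

theorem actH_apply (s : TPoly m ℤ) (x : JZero n) : actH hn s x = ren (dvd_of hn) s • x := rfl

theorem actH_X (l : Pr m) (x : JZero n) : actH hn (MvPolynomial.X l) x = Tj l x := by
  rw [actH_apply, ren_X_smul]

end Concrete

section Comap

variable {m p : ℕ} [hp : Fact p.Prime] {O : Type} [CommRing O] {𝔪 : Ideal (TPoly m O)} [𝔪.IsPrime]
  (hp𝔪 : (MvPolynomial.C (p : O) : TPoly m O) ∈ 𝔪) (a : Pr m → ℤ)
  (ha : ∀ l : Pr m, (MvPolynomial.X l - MvPolynomial.C ((a l : ℤ) : O) : TPoly m O) ∈ 𝔪)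

include ha in
theorem X_sub_mem_comap (l : Pr m) : (MvPolynomial.X l - MvPolynomial.C (a l) : TPoly m ℤ) ∈
    𝔪.comap (TWD.Shap.pz m O) := by
  rw [Ideal.mem_comap, map_sub, MvPolynomial.map_X, MvPolynomial.map_C]
  exact ha l

include hp𝔪 ha in
/-- the contraction to integral polynomials is maximal -/
theorem comap_isMaximal : (𝔪.comap (TWD.Shap.pz m O)).IsMaximal := by
  set I := 𝔪.comap (TWD.Shap.pz m O) with hI
  let ev : TPoly m ℤ →+* ZMod p :=
    MvPolynomial.eval₂Hom (Int.castRingHom _) (fun l => ((a l : ℤ) : ZMod p))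
  have hev : Function.Surjective ev := fun x => by
    obtain ⟨z, rfl⟩ := ZMod.intCast_surjective x
    exact ⟨MvPolynomial.C z, MvPolynomial.eval₂Hom_C _ _ _⟩
  have hker : (RingHom.ker ev).IsMaximal := RingHom.ker_isMaximal_of_surjective ev hev
  have hval : ∀ P : TPoly m ℤ, P - MvPolynomial.C (MvPolynomial.eval a P) ∈ I := by
    intro P
    induction P using MvPolynomial.induction_on with
    | C z => rw [MvPolynomial.eval_C, sub_self]; exact I.zero_mem
    | add f g hf hg =>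
      rw [map_add, map_add]
      have := I.add_mem hf hg
      convert this using 1
      ring
    | mul_X f l hf =>
      rw [map_mul, MvPolynomial.eval_X, map_mul]
      have h1 := I.mul_mem_right (MvPolynomial.X l) hf
      have h2 := I.mul_mem_left (MvPolynomial.C (MvPolynomial.eval a f)) (X_sub_mem_comap a ha l)
      have := I.add_mem h1 h2
      convert this using 1
      ring
  have hev' : ∀ P, ev P = ((MvPolynomial.eval a P : ℤ) : ZMod p) := by
    intro P
    have h : ev = (Int.castRingHom (ZMod p)).comp (MvPolynomial.eval a) := by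
      refine MvPolynomial.ringHom_ext (fun z => ?_) (fun l => ?_)
      · rw [RingHom.comp_apply, MvPolynomial.eval_C]
        exact MvPolynomial.eval₂Hom_C _ _ _
      · rw [RingHom.comp_apply, MvPolynomial.eval_X]
        exact MvPolynomial.eval₂Hom_X' _ _ _
    rw [h]
    rfl
  have hle : RingHom.ker ev ≤ I := by
    intro P hP
    rw [RingHom.mem_ker, hev', ZMod.intCast_zmod_eq_zero_iff_dvd] at hP
    obtain ⟨z, hz⟩ := hP
    have h1 := hval P
    have h2 : (MvPolynomial.C (MvPolynomial.eval a P) : TPoly m ℤ) ∈ I := by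
      rw [hz, hI, Ideal.mem_comap, MvPolynomial.map_C, map_mul, map_mul]
      refine Ideal.mul_mem_right _ _ ?_
      rw [eq_intCast, Int.cast_natCast]
      exact hp𝔪
    have := I.add_mem h1 h2
    rwa [sub_add_cancel] at this
  have hne : I ≠ ⊤ := (inferInstance : I.IsPrime).ne_top
  rw [← hker.eq_of_le hne hle]
  exact hker

end Comap

section Main

variable {m n p : ℕ} [NeZero n] [hp : Fact p.Prime] (hp2 : p ≠ 2) (hn : n ∣ m) (hm : m ≠ 0)
  (hpm : p ∣ m) {O : Type} [CommRing O] [IsDomain O] [IsDiscreteValuationRing O]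
  [IsAdicComplete (maximalIdeal O) O] [Finite (ResidueField O)] [CharZero O]
  (hpO : (p : O) ∈ maximalIdeal O)
  {rbar : GQ →* M2 (ResidueField O)} {sd : SliceData rbar}
  (hspan : Submodule.span (ResidueField O) (Set.range rbar) = ⊤)
  {𝔪 : Ideal (TPoly m O)} [𝔪.IsPrime] (hE : NonEis n 𝔪)
  (B : RT8.BMod sd) (φ : TPoly m O →ₐ[O] B.C.T) (hφ : Function.Surjective φ)
  (e : B.M ≃+ Loc 𝔪 (HG m n hn O)) (he : ∀ P x, e (φ P • x) = P • e x)
  (htr : ∀ (l : Pr m) (A : ValuationSubring (AlgebraicClosure ℚ)), A.LiesOverPrime l →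
    ∀ τ : GQ, A.IsFrobeniusAt τ l → (B.C.r τ).trace = φ (MvPolynomial.X l) ∧
      (B.C.r τ).det = (l : ℕ))
  (τ : GQ)

include hp2 hm hpm hpO hspan hE hφ he htr in
/-- **Exactness of `r(τ) - 1`** from exactness of `τ - 1` on `J₀(n)[p]` at `𝔪`. -/
theorem exactM_of_J
    (hJ : ∀ x : JZero n, p • x = 0 → τ • x = x → ∃ s : TPoly m ℤ, TWD.Shap.pz m O s ∉ 𝔪 ∧
      ∃ z : JZero n, p • z = 0 ∧ ren (dvd_of hn) s • x = τ • z - z) :
    RT8.ExactM B (B.C.r τ - 1) := by
  have hk0 : (p : ResidueField O) = 0 := by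
    rw [← map_natCast (residue O), residue_eq_zero_iff]
    exact hpO
  have hchar : CharP (ResidueField O) p := (CharP.charP_iff_prime_eq_zero hp.out).mpr hk0
  let _ : Algebra (ZMod p) (ResidueField O) := ZMod.algebra _ p
  refine exactM_abs hp2 hn hm hpm hspan hE B φ hφ e he htr τ (IN p hn) (TN p hn) (TN_val p hn)
    (finite_Jp p hn) (surj_Jp p hn) fun a ha => ?_
  have ha' : τ • (Jp.val a : JZero n) = Jp.val a := congrArg Jp.val ha
  obtain ⟨s, hs, z, hz, hsz⟩ := hJ (Jp.val a) (Jp.nsmul_val a) ha'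
  refine ⟨TWD.Shap.pz m O s, hs, Jp.mk z hz, fun c => ?_⟩
  have h1 := map_smul_tmul (J := JZero n) (p := p) (t := fun l => Tj l) (T := TN p hn)
    (fun l x => rfl) (O := O) (κ := residue O) (actH hn) (actH_X hn) s c a
  refine h1.trans ?_
  congr 1
  apply Jp.val_injective
  exact hsz

include hp2 hm hpm hpO hspan hE hφ he htr in
/-- **Exactness of `r(τ) - 1`**, in the form of `Ribet.exact_J`. -/
theorem exactM_of_idem (hp𝔪 : (MvPolynomial.C (p : O) : TPoly m O) ∈ 𝔪) (a : Pr m → ℤ)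
    (ha : ∀ l : Pr m, (MvPolynomial.X l - MvPolynomial.C ((a l : ℤ) : O) : TPoly m O) ∈ 𝔪)
    (hJ : ∀ (e : TPoly m ℤ) (k : ℕ), (∀ x : JZero n, p • x = 0 →
        ren (dvd_of hn) e • ren (dvd_of hn) e • x = ren (dvd_of hn) e • x) →
      (∀ t ∈ (𝔪.comap (TWD.Shap.pz m O)) ^ k, ∀ x : JZero n, p • x = 0 →
        ren (dvd_of hn) t • ren (dvd_of hn) e • x = 0) →
      ∀ x : JZero n, p • x = 0 → ren (dvd_of hn) e • x = x → τ • x = x →
        ∃ z : JZero n, p • z = 0 ∧ ren (dvd_of hn) e • z = z ∧ τ • z - z = x) :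
    RT8.ExactM B (B.C.r τ - 1) := by
  have hmax := comap_isMaximal hp𝔪 a ha
  have hfin : Finite {x : JZero n // p • x = 0} := by
    have h : Finite (Jp (JZero n) p) := finite_Jp p hn
    exact Finite.of_injective (β := Jp (JZero n) p) (fun x => Jp.mk x.1 x.2) fun x y h =>
      Subtype.ext (congrArg Jp.val h)
  exact exactM_of_J hp2 hn hm hpm hpO hspan hE B φ hφ _ he htr τ
    (exact_of_idem (ren (dvd_of hn)) p hfin (𝔪.comap (TWD.Shap.pz m O)) τ hJ)

end Main

end Fermat.Agent.Mor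

end
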