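import Fermat.Agent.TW.Base2
import Fermat.Agent.TorsCmp.Surj
import Fermat.Agent.ZEnd.End

/-!
The module of level `Γ₀(n)` as a group of homomorphisms, for all coefficients.
-/

set_option autoImplicit false
set_option linter.unusedSectionVars false

noncomputable section

namespace Fermat.Agent.Mor

open IsLocalRing Module Matrix Polynomial
open Fermat.Agent.TW Fermat.Agent.TWDeg
open CongruenceSubgroup ModularCurve.Period HeckeHom
open scoped MatrixGroups

/-- the module of level `Γ₀(n)` with coefficients in `A` -/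
abbrev HA (m n : ℕ) (hn : n ∣ m) (O A : Type) [CommRing O] [AddCommGroup A] [Module O A] : Type :=
  (Stg.gamma0 n hn (one_dvd m)).H (triv 1 O A)

section Transport

variable {D : Type} [CommGroup D] {W : TWD D} {m : ℕ} (hM : W.M ∣ m) {O : Type} [CommRing O]
  (A : Type) [AddCommGroup A] [Module O A]

include hM in
theorem exists_homG' {k : ℕ} (hk : k = W.N * W.dd) (hkm : k ∣ m) :
    ∃ E : HA m k hkm O A ≃ₗ[O] (Additive (Gamma0 k) →+ A),
      (∀ (l : Pr m) x, E ((MvPolynomial.X l : TPoly m O) • x) =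
        heckeHom l.2.1 (fun h => l.2.2 (h.trans hkm)) A (E x)) ∧
      ∀ (_ : ∀ (n : ℕ) (a : A), n ≠ 0 → n • a = 0 → a = 0) (l : Pr m),
        ((l : ℕ) : ZMod W.M) = 1 → ∀ x, E (eis O l • x) ∈ parabolicHoms O (Gamma0 k) A := by
  subst hk
  let b := baseTW W hM O A
  let S := W.shap_bor
  refine ⟨(b.symm.restrictScalars O).trans (S.equiv hM O A), fun l x => ?_, fun hA l hl x => ?_⟩
  · obtain ⟨y, rfl⟩ := b.surjective x
    rw [← map_smul, LinearEquiv.trans_apply, LinearEquiv.trans_apply,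
      LinearEquiv.restrictScalars_apply, LinearEquiv.restrictScalars_apply,
      LinearEquiv.symm_apply_apply, LinearEquiv.symm_apply_apply, Stg.X_smul]
    exact S.equiv_T hM O A l _ y
  · obtain ⟨y, rfl⟩ := b.surjective x
    rw [← map_smul, LinearEquiv.trans_apply, LinearEquiv.restrictScalars_apply,
      LinearEquiv.symm_apply_apply]
    have h1 : eis O l • y = (XF hM).T _ l y - ((l : ℕ) + 1) • y := by
      change (MvPolynomial.X l - MvPolynomial.C (((l : ℕ) : O) + 1) : TPoly m O) • y = _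
      rw [sub_smul, Stg.X_smul, Stg.C_smul, ← Nat.cast_succ, Nat.cast_smul_eq_nsmul]
    rw [h1]
    exact S.parabolic hM O A hA l hl y

end Transport

section

variable {m n : ℕ} (hn0 : n ≠ 0) (hn : n ∣ m) (O : Type) [CommRing O]
  (A : Type) [AddCommGroup A] [Module O A]

include hn0 in
theorem exists_homG : ∃ E : HA m n hn O A ≃ₗ[O] (Additive (Gamma0 n) →+ A),
      (∀ (l : Pr m) x, E ((MvPolynomial.X l : TPoly m O) • x) =
        heckeHom l.2.1 (fun h => l.2.2 (h.trans hn)) A (E x)) ∧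
      ∀ (_ : ∀ (n : ℕ) (a : A), n ≠ 0 → n • a = 0 → a = 0) (l : Pr m),
        ((l : ℕ) : ZMod n) = 1 → ∀ x, E (eis O l • x) ∈ parabolicHoms O (Gamma0 n) A := by
  obtain ⟨E, h1, h2⟩ := exists_homG' (W := W0 n hn0) (O := O) (W0_dvd hn0 hn) A (W0_lev n hn0) hn
  refine ⟨E, h1, fun hA l hl => h2 hA l ?_⟩
  rw [W0_M]
  exact hl

end

end Fermat.Agent.Mor

end
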