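import Fermat.Agent.Mor.Act
import Fermat.Agent.Ribet.JExact

/-!
**Exactness of `r(τ) - 1` on the reduction of the localised module of level `Γ₀(n)`.**
-/

set_option autoImplicit false
set_option linter.unusedSectionVars false

noncomputable section

namespace Fermat.Agent.Mor

open IsLocalRing Module
open Fermat.Agent.TW Fermat.Agent.TWDeg Fermat.Agent.Tate
open CongruenceSubgroup ModularCurve.Period HeckeHom ModularCurve
open Fermat.Agent.DefRing (M2 MatCont mapRep mapRep_apply ofMat matOf Red SliceData)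
open scoped MatrixGroups

local notation "GQ" => (AlgebraicClosure ℚ ≃ₐ[ℚ] AlgebraicClosure ℚ)

theorem XA.op_sub {ι F k A : Type} [Field F] [Field k] [Algebra F k] [AddCommGroup A] [Module F A]
    (T : Fam ι F A) (O : Type) [CommRing O] (κ : O →+* k) (f g : Module.End F A)
    (x : XA T O k κ) :
    XA.op T O κ (f - g) x = XA.op T O κ f x - XA.op T O κ g x :=
  DFunLike.congr_fun (LinearMap.baseChange_sub f g) x

section Main

variable {m n p : ℕ} [NeZero n] [hp : Fact p.Prime] (hp2 : p ≠ 2) (hn : n ∣ m) (hm : m ≠ 0)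
  (hpm : p ∣ m) {O : Type} [CommRing O] [IsDomain O] [IsDiscreteValuationRing O]
  [IsAdicComplete (maximalIdeal O) O] [Finite (ResidueField O)] [CharZero O]
  {rbar : GQ →* M2 (ResidueField O)} {sd : SliceData rbar}
  (hspan : Submodule.span (ResidueField O) (Set.range rbar) = ⊤)
  {𝔪 : Ideal (TPoly m O)} [𝔪.IsPrime] (hE : NonEis n 𝔪)
  (B : RT8.BMod sd) (φ : TPoly m O →ₐ[O] B.C.T) (hφ : Function.Surjective φ)
  (e : B.M ≃+ Loc 𝔪 (HG m n hn O)) (he : ∀ P x, e (φ P • x) = P • e x)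
  (htr : ∀ (l : Pr m) (A : ValuationSubring (AlgebraicClosure ℚ)), A.LiesOverPrime l →
    ∀ τ : GQ, A.IsFrobeniusAt τ l → (B.C.r τ).trace = φ (MvPolynomial.X l) ∧
      (B.C.r τ).det = (l : ℕ))
  (τ : GQ)

include hp2 hm hpm hspan hE hφ he htr in
theorem exactM_abs [CharP (ResidueField O) p] [Algebra (ZMod p) (ResidueField O)]
    (I : TateInput p n (SS m)) (T : Fam (Pr m) (ZMod p) (Jp I.J p))
    (hT : ∀ (l : Pr m) (x : Jp I.J p), Jp.val (T.t l x) =
      I.T l.1 l.2.1 (fun h => l.2.2 (h.trans hn)) (Jp.val x))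
    (hfin : Finite (Jp I.J p))
    (hsurj : ∀ a : Jp I.J p, ∃ φ : Additive (Gamma0 n) →+ ℤ_[p], I.C.e 1 a = red 1 φ)
    (hex : ∀ a : Jp I.J p, Jp.gal I.J p GQ τ a = a → ∃ s ∉ 𝔪, ∃ z : Jp I.J p,
      ∀ c : ResidueField O, s • XA.tmul T O (residue O) c a =
        XA.tmul T O (residue O) c (Jp.gal I.J p GQ τ z - z)) :
    RT8.ExactM B (B.C.r τ - 1) := by
  obtain ⟨f, j, hj, h1, h2, h3, h4⟩ := exists_maps (O := O) hn I T hT hsurj
  obtain ⟨l, hl, hl𝔪⟩ := hE
  have hη : eis O l ∉ 𝔪 := hl𝔪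
  have hk : ∀ P, (φ : TPoly m O →+* B.C.T) P = 0 → ∀ x : Loc 𝔪 (XJ (O := O) I T), P • x = 0 := by
    intro P hP x
    apply loc_injective 𝔪 j hj
    obtain ⟨y, hy⟩ := loc_exists_of 𝔪 f j h1 x
    have h5 : P • y = 0 := by
      have h6 := he P (e.symm y)
      have h7 : φ P = 0 := hP
      rw [h7, zero_smul, map_zero, e.apply_symm_apply] at h6
      exact h6.symm
    rw [map_smul, ← hy, ← map_smul, h5, map_zero, map_zero]
  obtain ⟨i, hi⟩ := exists_module (φ : TPoly m O →+* B.C.T) hφ hk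
  let _ := i
  have hs' : ∀ P (x : Loc 𝔪 (XJ (O := O) I T)), φ P • x = P • x := fun P x => hi P x
  obtain ⟨Ψ, hΨ⟩ := exists_psi hp2 hn hm hpm hspan 𝔪 I T hT hfin φ hφ B.C.r B.C.cont B.C.red
    htr hs'
  have hX : Finite (XJ (O := O) I T) := finite_XJ I T hfin
  have hs : Function.Surjective (Loc.mk 𝔪 (XJ (O := O) I T)) := mk_surjective_of_finite 𝔪
  set δ : Module.End (ZMod p) (Jp I.J p) := Jp.gal I.J p GQ τ - 1 with hδ
  have hδc : ∀ l, δ * T.t l = T.t l * δ := fun l => by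
    rw [hδ, sub_mul, mul_sub, gal_comm hn I T hT, one_mul, mul_one]
  have hN : ∀ x : Loc 𝔪 (XJ (O := O) I T), Ψ (B.C.r τ - 1) x =
      Loc.map 𝔪 (XA.lin T O (residue O) δ hδc) x := by
    intro x
    obtain ⟨x, rfl⟩ := hs x
    rw [Loc.map_mk, XA.lin_apply, hδ, XA.op_sub, XA.op_one, map_sub, map_one,
      LinearMap.sub_apply, hΨ, map_sub]
    rfl
  have hexX : ∀ x : Loc 𝔪 (XJ (O := O) I T), Ψ (B.C.r τ - 1) x = 0 →
      ∃ z, Ψ (B.C.r τ - 1) z = x := by
    intro x hx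
    rw [hN] at hx
    obtain ⟨z, hz⟩ := loc_exact 𝔪 (XA.lin T O (residue O) δ hδc) (fun y hy => by
      refine XA.exists_of_fixed T O (residue O) δ hδc 𝔪 (fun a ha => ?_) y hy
      obtain ⟨s, hs, z, hz⟩ := hex a (by
        rw [hδ, LinearMap.sub_apply, sub_eq_zero] at ha
        exact ha)
      exact ⟨s, hs, z, hz⟩) x hx
    exact ⟨z, (hN z).trans hz⟩
  intro x y hx hy
  exact exact_transfer B.tower φ hφ 𝔪 e he f j hj h1 hη (h2 l hl) h3 h4 hs'
    ((B.C.r τ - 1) 0 0) ((B.C.r τ - 1) 0 1) ((B.C.r τ - 1) 1 0) ((B.C.r τ - 1) 1 1)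
    (fun x y h h' => exact_pair Ψ (B.C.r τ - 1) hexX x y h h') x y hx hy

end Main

end Fermat.Agent.Mor

end
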