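import Fermat.Agent.TW.Poly
import Fermat.Agent.TW.Loc
import Mathlib.RingTheory.TensorProduct.Free
import Mathlib.LinearAlgebra.Dual.Lemmas
import Mathlib.RingTheory.Flat.Basic

/-!
Extension of scalars of Hecke modules over a prime field.
-/

set_option autoImplicit false
set_option linter.unusedSectionVars false

noncomputable section

open scoped TensorProduct
open Module

namespace Fermat.Agent.Mor

open Fermat.Agent.TW

section Ind

variable {F k G ι : Type} [Field F] [Field k] [Algebra F k]

/-- linear independence of functions after extension of scalars -/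
theorem linearIndependent_extend {v : ι → G → F} (hv : LinearIndependent F v) :
    LinearIndependent k (fun i g => algebraMap F k (v i g)) := by
  rw [linearIndependent_iff'] at hv ⊢
  intro s g hg i hi
  rw [← Module.forall_dual_apply_eq_zero_iff F]
  intro φ
  refine hv s (fun i => φ (g i)) ?_ i hi
  funext γ
  have h1 := congrFun hg γ
  rw [Finset.sum_apply] at h1 ⊢
  have h2 := congrArg φ h1
  rw [map_sum, Pi.zero_apply, map_zero] at h2
  rw [Pi.zero_apply, ← h2]
  refine Finset.sum_congr rfl fun j _ => ?_
  rw [Pi.smul_apply, Pi.smul_apply, smul_eq_mul, smul_eq_mul, mul_comm (g j),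
    ← Algebra.smul_def, map_smul, smul_eq_mul, mul_comm]

variable {A : Type} [AddCommGroup A] [Module F A] {N : Type} [AddCommGroup N] [Module k N]

/-- injectivity of the extension of scalars of an injective map to a space of functions -/
theorem ext_injective (j₀ : A →ₗ[F] (G → F)) (hj₀ : Function.Injective j₀)
    (J : (k ⊗[F] A) →ₗ[k] N) (ev : N →ₗ[k] (G → k))
    (hJ : ∀ a g, ev (J (1 ⊗ₜ a)) g = algebraMap F k (j₀ a g)) : Function.Injective J := by
  let b := Module.Free.chooseBasis F A
  let bk := Algebra.TensorProduct.basis k b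
  have h1 : LinearIndependent F (fun i => j₀ (b i)) :=
    b.linearIndependent.map' j₀ (LinearMap.ker_eq_bot.mpr hj₀)
  have h2 := linearIndependent_extend (k := k) h1
  rw [injective_iff_map_eq_zero]
  intro x hx
  have h3 : Finsupp.linearCombination k (fun i g => algebraMap F k (j₀ (b i) g)) (bk.repr x) = 0 := by
    have h4 : (fun i g => algebraMap F k (j₀ (b i) g)) = (ev ∘ₗ J) ∘ bk := by
      funext i g
      rw [Function.comp_apply, LinearMap.comp_apply, Algebra.TensorProduct.basis_apply, hJ]
    rw [h4, ← Finsupp.apply_linearCombination, Basis.linearCombination_repr, LinearMap.comp_apply,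
      hx, map_zero]
  have h5 := (linearIndependent_iff.mp h2) _ h3
  exact bk.repr.injective (h5.trans (map_zero _).symm)

end Ind

section Ext

variable {σ F k A : Type} [Field F] [Field k] [Algebra F k] [AddCommGroup A] [Module F A]

/-- a commuting family of endomorphisms -/
structure Fam (σ F A : Type) [Field F] [AddCommGroup A] [Module F A] where
  /-- the operators -/
  t : σ → Module.End F A
  comm : ∀ i j, t i * t j = t j * t i

variable (T : Fam σ F A) (O : Type) [CommRing O] (κ : O →+* k)

/-- the extension of scalars of a module with a commuting family of endomorphisms -/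
def XA (_ : Fam σ F A) (O : Type) [CommRing O] (k : Type) [Field k] [Algebra F k]
    (_ : O →+* k) : Type := k ⊗[F] A

instance : AddCommGroup (XA T O k κ) := inferInstanceAs (AddCommGroup (k ⊗[F] A))
instance : Module k (XA T O k κ) := inferInstanceAs (Module k (k ⊗[F] A))

/-- the operators -/
def XA.op (f : Module.End F A) : Module.End k (XA T O k κ) := f.baseChange k

/-- pure tensors -/
def XA.tmul (c : k) (a : A) : XA T O k κ := (c ⊗ₜ[F] a : k ⊗[F] A)

theorem XA.op_tmul (f : Module.End F A) (c : k) (a : A) :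
    XA.op T O κ f (XA.tmul T O κ c a) = XA.tmul T O κ c (f a) := rfl

theorem XA.add_tmul (c c' : k) (a : A) :
    XA.tmul T O κ (c + c') a = XA.tmul T O κ c a + XA.tmul T O κ c' a := TensorProduct.add_tmul _ _ _

theorem XA.tmul_add (c : k) (a a' : A) :
    XA.tmul T O κ c (a + a') = XA.tmul T O κ c a + XA.tmul T O κ c a' := TensorProduct.tmul_add _ _ _

theorem XA.smul_tmul (d c : k) (a : A) :
    d • XA.tmul T O κ c a = XA.tmul T O κ (d * c) a := rfl

theorem XA.ind {p : XA T O k κ → Prop} (h0 : p 0) (ht : ∀ c a, p (XA.tmul T O κ c a))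
    (hadd : ∀ x y, p x → p y → p (x + y)) (x : XA T O k κ) : p x :=
  TensorProduct.induction_on (motive := fun x : k ⊗[F] A => p x) x h0 ht hadd

theorem XA.op_mul (f g : Module.End F A) :
    XA.op T O κ (f * g) = XA.op T O κ f * XA.op T O κ g := LinearMap.baseChange_mul f g

theorem XA.op_one : XA.op T O κ 1 = 1 := LinearMap.baseChange_one ..

theorem XA.op_comm {f g : Module.End F A} (h : f * g = g * f) :
    XA.op T O κ f * XA.op T O κ g = XA.op T O κ g * XA.op T O κ f := by
  rw [← XA.op_mul, ← XA.op_mul, h]

/-- the action of the polynomial ring -/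
def XA.act : MvPolynomial σ O →+* Module.End k (XA T O k κ) :=
  (polyEnd (fun i => XA.op T O κ (T.t i)) fun i j => XA.op_comm T O κ (T.comm i j)).toRingHom.comp
    (MvPolynomial.map κ)

instance : Module (MvPolynomial σ O) (XA T O k κ) := Module.compHom _ (XA.act T O κ)

theorem XA.smul_def (P : MvPolynomial σ O) (x : XA T O k κ) : P • x = XA.act T O κ P x := rfl

theorem XA.X_smul (i : σ) (x : XA T O k κ) :
    (MvPolynomial.X i : MvPolynomial σ O) • x = XA.op T O κ (T.t i) x := by
  rw [XA.smul_def, XA.act, RingHom.comp_apply, MvPolynomial.map_X]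
  exact DFunLike.congr_fun (polyEnd_X (fun i => XA.op T O κ (T.t i)) _ i) x

theorem XA.C_smul (a : O) (x : XA T O k κ) :
    (MvPolynomial.C a : MvPolynomial σ O) • x = κ a • x := by
  rw [XA.smul_def, XA.act, RingHom.comp_apply, MvPolynomial.map_C]
  exact DFunLike.congr_fun (polyEnd_C (fun i => XA.op T O κ (T.t i)) _ (κ a)) x

/-- maps commuting with the operators are linear over the polynomial ring -/
theorem XA.map_smul_of {N : Type} [AddCommGroup N] [Module (MvPolynomial σ O) N]
    (f : XA T O k κ →+ N) (hC : ∀ a x, f (κ a • x) = (MvPolynomial.C a : MvPolynomial σ O) • f x)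
    (hX : ∀ i x, f (XA.op T O κ (T.t i) x) = (MvPolynomial.X i : MvPolynomial σ O) • f x)
    (P : MvPolynomial σ O) (x : XA T O k κ) : f (P • x) = P • f x := by
  induction P using MvPolynomial.induction_on generalizing x with
  | C a => rw [XA.C_smul, hC]
  | add p q hp hq => rw [add_smul, map_add, hp, hq, add_smul]
  | mul_X p i hp => rw [mul_smul, hp, XA.X_smul, hX, mul_smul]

/-- endomorphisms of `A` commuting with the family -/
def XA.lin (f : Module.End F A) (hf : ∀ i, f * T.t i = T.t i * f) :
    XA T O k κ →ₗ[MvPolynomial σ O] XA T O k κ where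
  toFun := XA.op T O κ f
  map_add' := map_add _
  map_smul' P x := by
    refine XA.map_smul_of T O κ (XA.op T O κ f).toAddMonoidHom (fun a x => ?_) (fun i x => ?_) P x
    · rw [XA.C_smul]
      exact map_smul (XA.op T O κ f) (κ a) x
    · rw [XA.X_smul]
      exact DFunLike.congr_fun (XA.op_comm T O κ (hf i)) x

theorem XA.lin_apply (f : Module.End F A) (hf : ∀ i, f * T.t i = T.t i * f)
    (x : XA T O k κ) : XA.lin T O κ f hf x = XA.op T O κ f x := rfl

/-- flatness: the kernel of the extension of scalars -/
theorem XA.ker_ind {f : Module.End F A} {p : XA T O k κ → Prop} (h0 : p 0)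
    (ht : ∀ c a, f a = 0 → p (XA.tmul T O κ c a))
    (hadd : ∀ x y, p x → p y → p (x + y)) (x : XA T O k κ) (hx : XA.op T O κ f x = 0) : p x := by
  have h1 : Function.Exact (LinearMap.ker f).subtype f := LinearMap.exact_subtype_ker_map f
  have h2 := Module.Flat.lTensor_exact k h1
  obtain ⟨y, hy⟩ := (h2 x).mp hx
  rw [← hy]
  clear hx hy
  induction y using TensorProduct.induction_on with
  | zero => rw [map_zero]; exact h0
  | tmul c a => exact ht c a.1 a.2
  | add y y' hy hy' => rw [map_add]; exact hadd _ _ hy hy'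

/-- exactness after extension of scalars, up to elements outside a prime ideal. -/
theorem XA.exists_of_fixed (f : Module.End F A) (hf : ∀ i, f * T.t i = T.t i * f)
    (𝔪 : Ideal (MvPolynomial σ O)) [𝔪.IsPrime]
    (hex : ∀ a : A, f a = 0 → ∃ s ∉ 𝔪, ∃ z : A,
      ∀ c : k, s • XA.tmul T O κ c a = XA.tmul T O κ c (f z))
    (x : XA T O k κ) (hx : XA.op T O κ f x = 0) :
    ∃ s ∉ 𝔪, ∃ z, s • x = XA.op T O κ f z := by
  refine XA.ker_ind T O κ (p := fun x => ∃ s ∉ 𝔪, ∃ z, s • x = XA.op T O κ f z) ?_
    (fun c a ha => ?_) (fun x y hx hy => ?_) x hx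
  · refine ⟨1, (Ideal.ne_top_iff_one 𝔪).mp Ideal.IsPrime.ne_top', 0, ?_⟩
    rw [map_zero, smul_zero]
  · obtain ⟨s, hs, z, h1⟩ := hex a ha
    exact ⟨s, hs, XA.tmul T O κ c z, h1 c⟩
  · obtain ⟨s, hs, z, h1⟩ := hx
    obtain ⟨s', hs', z', h1'⟩ := hy
    refine ⟨s * s', fun h => ?_, s' • z + s • z', ?_⟩
    · rcases (inferInstance : 𝔪.IsPrime).mem_or_mem h with h | h
      · exact hs h
      · exact hs' h
    · have h4 := map_smul (XA.lin T O κ f hf) s' z
      have h5 := map_smul (XA.lin T O κ f hf) s z'
      rw [XA.lin_apply, XA.lin_apply] at h4 h5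
      rw [map_add, h4, h5, ← h1, ← h1', smul_smul, smul_smul, mul_comm s' s, smul_add]

end Ext

end Fermat.Agent.Mor

end
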