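import Fermat.Agent.Mor.Tens
import Fermat.Agent.Tate.Abs
import Mathlib.Algebra.Module.ZMod

/-!
The `p`-torsion of an abelian group as a vector space over `𝔽_p`.
-/

set_option autoImplicit false
set_option linter.unusedSectionVars false

noncomputable section

namespace Fermat.Agent.Mor

open Module Fermat.Agent.Tate

section Jp

variable (J : Type) [AddCommGroup J] (p : ℕ) [hp : Fact p.Prime]

/-- the `p`-torsion -/
def Jp : Type := tor p J 1

instance : AddCommGroup (Jp J p) := inferInstanceAs (AddCommGroup (tor p J 1))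

variable {J p}

theorem Jp.nsmul_eq_zero (x : Jp J p) : p • x = 0 := by
  apply Subtype.ext
  have h := (mem_tor p).mp (show (x : tor p J 1).1 ∈ tor p J 1 from x.2)
  rw [pow_one] at h
  exact h

instance : Module (ZMod p) (Jp J p) := AddCommGroup.zmodModule Jp.nsmul_eq_zero

/-- the underlying element -/
def Jp.val : Jp J p →+ J := AddSubgroup.subtype _

theorem Jp.val_injective : Function.Injective (Jp.val : Jp J p →+ J) := Subtype.val_injective

theorem Jp.nsmul_val (x : Jp J p) : p • Jp.val x = 0 := by
  rw [← map_nsmul, Jp.nsmul_eq_zero, map_zero]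

/-- elements given by torsion elements -/
def Jp.mk (x : J) (hx : p • x = 0) : Jp J p := ⟨x, (mem_tor p).mpr (by rw [pow_one]; exact hx)⟩

theorem Jp.val_mk (x : J) (hx : p • x = 0) : Jp.val (Jp.mk x hx) = x := rfl

/-- endomorphisms of the torsion -/
def Jp.endo (f : J →+ J) : Module.End (ZMod p) (Jp J p) :=
  AddMonoidHom.toZModLinearMap p
    { toFun := fun x => Jp.mk (f (Jp.val x)) (by rw [← map_nsmul, Jp.nsmul_val, map_zero])
      map_zero' := Jp.val_injective (by rw [Jp.val_mk, map_zero, map_zero])
      map_add' := fun x y => Jp.val_injective (by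
        rw [Jp.val_mk, map_add, map_add, map_add, Jp.val_mk, Jp.val_mk]) }

theorem Jp.val_endo (f : J →+ J) (x : Jp J p) :
    Jp.val (Jp.endo f x) = f (Jp.val x) := rfl

theorem Jp.endo_comm {f g : J →+ J} (h : ∀ x, f (g x) = g (f x)) :
    Jp.endo (p := p) f * Jp.endo g = Jp.endo g * Jp.endo f :=
  LinearMap.ext fun x => Jp.val_injective (h (Jp.val x))

variable {G : Type} [Group G] [DistribMulAction G J]

/-- the group action -/
def Jp.gal (J : Type) [AddCommGroup J] (p : ℕ) [Fact p.Prime] (G : Type) [Group G]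
    [DistribMulAction G J] : G →* Module.End (ZMod p) (Jp J p) where
  toFun σ := Jp.endo (DistribSMul.toAddMonoidHom J σ)
  map_one' := LinearMap.ext fun x => Jp.val_injective (one_smul G (Jp.val x))
  map_mul' σ τ := LinearMap.ext fun x => Jp.val_injective (mul_smul σ τ (Jp.val x))

theorem Jp.val_gal (σ : G) (x : Jp J p) : Jp.val (Jp.gal J p G σ x) = σ • Jp.val x := rfl

theorem Jp.finite (h : Finite {x : J // p • x = 0}) : Finite (Jp J p) :=
  Finite.of_injective (β := {x : J // p • x = 0})
    (fun x => ⟨Jp.val x, Jp.nsmul_val x⟩) fun x y h => Jp.val_injective (by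
      exact congrArg (fun z : {x : J // p • x = 0} => z.1) h)

end Jp

section Pz

open Fermat.Agent.TW

variable {J : Type} [AddCommGroup J] {p : ℕ} [hp : Fact p.Prime] {ι : Type} {t : ι → J →+ J}
  {T : Fam ι (ZMod p) (Jp J p)} (hT : ∀ i x, Jp.val (T.t i x) = t i (Jp.val x))
  {k : Type} [Field k] [Algebra (ZMod p) k] {O : Type} [CommRing O] {κ : O →+* k}

include hT

/-- integral polynomials act through the second factor -/
theorem map_smul_tmul (act : MvPolynomial ι ℤ →+* Module.End ℤ J)
    (hact : ∀ i x, act (MvPolynomial.X i) x = t i x) (s : MvPolynomial ι ℤ) (c : k) (a : Jp J p) :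
    (MvPolynomial.map (Int.castRingHom O) s) • XA.tmul T O κ c a =
      XA.tmul T O κ c (Jp.endo (act s).toAddMonoidHom a) := by
  have hz : ∀ (z : ℤ) (c : k) (a : Jp J p), (z : k) • XA.tmul T O κ c a =
      XA.tmul T O κ c (z • a) := by
    intro z c a
    rw [XA.smul_tmul]
    change ((z : k) * c) ⊗ₜ[ZMod p] a = c ⊗ₜ[ZMod p] (z • a)
    rw [← zsmul_eq_mul, TensorProduct.tmul_smul]
    rfl
  induction s using MvPolynomial.induction_on generalizing c a with
  | C z =>
    rw [MvPolynomial.map_C, XA.C_smul, eq_intCast, map_intCast, hz]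
    congr 1
    apply Jp.val_injective
    rw [Jp.val_endo, map_zsmul]
    have h1 : act (MvPolynomial.C z) = z • (1 : Module.End ℤ J) := by
      rw [← MvPolynomial.algebraMap_eq, eq_intCast, map_intCast]
      ext x
      simp
    change z • Jp.val a = act (MvPolynomial.C z) (Jp.val a)
    rw [h1]
    rfl
  | add f g hf hg =>
    rw [map_add, add_smul, hf, hg, ← XA.tmul_add]
    congr 1
    apply Jp.val_injective
    rw [map_add, Jp.val_endo, Jp.val_endo, Jp.val_endo]
    change _ = act (f + g) (Jp.val a)
    rw [map_add]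
    rfl
  | mul_X f i hf =>
    rw [map_mul, mul_smul, MvPolynomial.map_X, XA.X_smul, XA.op_tmul, hf]
    congr 1
    apply Jp.val_injective
    rw [Jp.val_endo, Jp.val_endo, hT]
    change act f (t i (Jp.val a)) = act (f * MvPolynomial.X i) (Jp.val a)
    rw [map_mul, ← hact]
    rfl

end Pz

end Fermat.Agent.Mor

end
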